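import Fermat.Agent.Curve.PlaceExtras
import Fermat.Agent.Curve.PoleDegree

/-!
A valuation with values in `ℤᵐ⁰` that is trivial on the constants gives a place.
-/

set_option autoImplicit false

noncomputable section

namespace FermatLib.Curve

open AlgebraicCurve WithZero

variable {K F : Type*} [Field K] [Field F] [Algebra K F]

theorem isPrincipalIdealRing_valuationSubring_withZero (ν : Valuation F ℤᵐ⁰) :
    IsPrincipalIdealRing ν.valuationSubring := by
  classical
  refine ⟨fun I => ?_⟩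
  rcases eq_or_ne I ⊥ with rfl | hI
  · exact bot_isPrincipal
  obtain ⟨b₀, hb₀, hb₀0⟩ := (Submodule.ne_bot_iff I).mp hI
  let P : ℕ → Prop := fun k => ∃ b ∈ I, b ≠ 0 ∧ (-log (ν (b : F))).toNat = k
  have hP : ∃ k, P k := ⟨_, b₀, hb₀, hb₀0, rfl⟩
  obtain ⟨b, hb, hb0, hbk⟩ := Nat.find_spec hP
  refine ⟨b, le_antisymm (fun c hc => ?_) ((Ideal.span_singleton_le_iff_mem I).mpr hb)⟩
  rcases eq_or_ne c 0 with rfl | hc0
  · exact zero_mem _
  have hmin := Nat.find_min' hP ⟨c, hc, hc0, rfl⟩
  have hbv : ν (b : F) ≠ 0 := (Valuation.ne_zero_iff ν).mpr fun h => hb0 (Subtype.ext h)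
  have hcv : ν (c : F) ≠ 0 := (Valuation.ne_zero_iff ν).mpr fun h => hc0 (Subtype.ext h)
  have hbn : log (ν (b : F)) ≤ 0 := (log_le_iff_le_exp hbv).mpr b.2
  have hcn : log (ν (c : F)) ≤ 0 := (log_le_iff_le_exp hcv).mpr c.2
  have hle : ν (c : F) ≤ ν (b : F) := (log_le_log hcv hbv).mp (by omega)
  have hmem : (c : F) / (b : F) ∈ ν.valuationSubring := by
    rw [Valuation.mem_valuationSubring_iff, map_div₀, div_le_one₀ (zero_lt_iff.mpr hbv)]
    exact hle
  rw [Ideal.mem_span_singleton]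
  exact ⟨⟨_, hmem⟩, Subtype.ext (mul_div_cancel₀ (c : F) fun h => hb0 (Subtype.ext h)).symm⟩

/-- The place of a nontrivial `ℤᵐ⁰`-valued valuation, trivial on the constants. -/
def placeOfValuation (ν : Valuation F ℤᵐ⁰) (hK : ∀ a : K, algebraMap K F a ∈ ν.valuationSubring)
    (hν : ν.valuationSubring ≠ ⊤) : Place K F where
  toValuationSubring := ν.valuationSubring
  algebraMap_mem' := hK
  ne_top' := hν
  isPrincipalIdealRing' := isPrincipalIdealRing_valuationSubring_withZero ν

@[simp]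
theorem placeOfValuation_toValuationSubring (ν : Valuation F ℤᵐ⁰)
    (hK : ∀ a : K, algebraMap K F a ∈ ν.valuationSubring) (hν : ν.valuationSubring ≠ ⊤) :
    (placeOfValuation ν hK hν).toValuationSubring = ν.valuationSubring := rfl

end FermatLib.Curve
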