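import Fermat.Agent.Curve.ConstExt.LeadingTerm
import Fermat.Agent.Curve.ConstExt.ValuationPlace

/-!
Constant field extensions: each place of `F` has exactly one extension to `E`, and every other
place of `E` is trivial on `F`.
-/

set_option autoImplicit false

noncomputable section

namespace FermatLib.Curve.IsConstantExtension

open AlgebraicCurve WithZero

variable {K L F E : Type*} [Field K] [Field L] [Algebra K L] [Field F] [Algebra K F]
  [Field E] [Algebra L E] {i : F →+* E}

/-- The place `w` of `E` lies over the place `v` of `F`. -/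
def LiesOverAlong (i : F →+* E) (w : Place L E) (v : Place K F) : Prop :=
  v.toValuationSubring = w.toValuationSubring.comap i

theorem liesOverAlong_of_forall_ord {w : Place L E} {v : Place K F}
    (hw : ∀ f, w.ord (i f) = v.ord f) : LiesOverAlong i w v := by
  refine SetLike.ext fun f => ?_
  rw [ValuationSubring.mem_comap]
  rcases eq_or_ne f 0 with rfl | hf
  · simp
  have hif : i f ≠ 0 := fun h0 => hf (i.injective (by simpa using h0))
  rw [mem_iff_ord_nonneg v hf, mem_iff_ord_nonneg w hif, hw]

theorem LiesOverAlong.exists_index {w : Place L E} {v : Place K F} (hvw : LiesOverAlong i w v) :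
    ∃ e : ℤ, 0 < e ∧ ∀ f, w.ord (i f) = e * v.ord f := by
  have hmem : ∀ f : F, f ∈ v.toValuationSubring ↔ i f ∈ w.toValuationSubring := fun f => by
    rw [hvw, ValuationSubring.mem_comap]
  have hne : ∀ f : F, f ≠ 0 → i f ≠ 0 := fun f hf h0 => hf (i.injective (by simpa using h0))
  obtain ⟨t, ht0, ht⟩ := exists_ord_eq_int v 1
  have hti : (t⁻¹ : F) ∉ v.toValuationSubring := by
    rw [notMem_iff_ord_neg, v.ord_inv, ht]
    norm_num
  rw [hmem, notMem_iff_ord_neg, map_inv₀, w.ord_inv] at hti
  refine ⟨w.ord (i t), by omega, fun f => ?_⟩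
  rcases eq_or_ne f 0 with rfl | hf
  · simp
  have hu0 : f * t ^ (-v.ord f) ≠ 0 := mul_ne_zero hf (zpow_ne_zero _ ht0)
  have hu : v.ord (f * t ^ (-v.ord f)) = 0 := by
    rw [v.ord_mul hf (zpow_ne_zero _ ht0), v.ord_zpow, ht]
    ring
  have h1 := (hmem _).mp ((mem_iff_ord_nonneg v hu0).mpr hu.ge)
  have h2 := (hmem _).mp ((mem_iff_ord_nonneg v (inv_ne_zero hu0)).mpr (by rw [v.ord_inv, hu]; rfl))
  rw [map_inv₀] at h2
  have h1' := ord_nonneg_of_mem_place w h1
  have h2' := ord_nonneg_of_mem_place w h2
  rw [w.ord_inv] at h2'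
  have h3 : w.ord (i (f * t ^ (-v.ord f))) = 0 := by omega
  rw [map_mul, map_zpow₀, w.ord_mul (hne f hf) (zpow_ne_zero _ (hne t ht0)), w.ord_zpow] at h3
  linarith

/-- Over a rational place there is no ramification in a constant field extension. -/
theorem ord_map_of_liesOverAlong (h : IsConstantExtension K L i) {w : Place L E} {v : Place K F}
    (hv : v.deg = 1) (hvw : LiesOverAlong i w v) (f : F) : w.ord (i f) = v.ord f := by
  obtain ⟨e, he, hw⟩ := hvw.exists_index
  obtain ⟨x, hx0, hx⟩ := exists_ord_eq_int w 1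
  obtain ⟨a, b, m, n, rfl, ha, hb⟩ := h.exists_div_hasLeadingTerm v hv hx0
  obtain ⟨ha0, ha'⟩ := ha.ord_eq he hw
  obtain ⟨hb0, hb'⟩ := hb.ord_eq he hw
  rw [ord_div w ha0 hb0, ha', hb'] at hx
  have he1 : e = 1 := Int.eq_one_of_dvd_one he.le ⟨m - n, by linarith⟩
  rw [hw, he1, one_mul]

theorem ord_div_eq (h : IsConstantExtension K L i) {w : Place L E} {v : Place K F}
    (hv : v.deg = 1) (hvw : LiesOverAlong i w v) {a b : E} {m n : ℤ}
    (ha : HasLeadingTerm L i v a m) (hb : HasLeadingTerm L i v b n) :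
    w.ord (a / b) = m - n := by
  have hw : ∀ f, w.ord (i f) = (1 : ℤ) * v.ord f := fun f => by
    rw [h.ord_map_of_liesOverAlong hv hvw, one_mul]
  obtain ⟨ha0, ha'⟩ := ha.ord_eq one_pos hw
  obtain ⟨hb0, hb'⟩ := hb.ord_eq one_pos hw
  rw [ord_div w ha0 hb0, ha', hb', one_mul, one_mul]

/-- At most one place lies over a rational place. -/
theorem liesOverAlong_unique (h : IsConstantExtension K L i) {w w' : Place L E} {v : Place K F}
    (hv : v.deg = 1) (hw : LiesOverAlong i w v) (hw' : LiesOverAlong i w' v) : w = w' := by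
  refine Place.ext (SetLike.ext fun x => ?_)
  rcases eq_or_ne x 0 with rfl | hx
  · simp
  obtain ⟨a, b, m, n, rfl, ha, hb⟩ := h.exists_div_hasLeadingTerm v hv hx
  rw [mem_iff_ord_nonneg w hx, mem_iff_ord_nonneg w' hx, h.ord_div_eq hv hw ha hb,
    h.ord_div_eq hv hw' ha hb]

/-- `x` has order `k` in the extension of `v`. -/
def HasExtOrd (L : Type*) [Field L] [Algebra L E] (i : F →+* E) (v : Place K F) (x : E)
    (k : ℤ) : Prop :=
  ∃ (a b : E) (m n : ℤ), x = a / b ∧ HasLeadingTerm L i v a m ∧ HasLeadingTerm L i v b n ∧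
    k = m - n

theorem HasExtOrd.eq (h : IsConstantExtension K L i) {v : Place K F} {x : E} {k k' : ℤ}
    (hk : HasExtOrd L i v x k) (hk' : HasExtOrd L i v x k') : k = k' := by
  obtain ⟨a, b, m, n, rfl, ha, hb, rfl⟩ := hk
  obtain ⟨c, d, p, q, hx, hc, hd, rfl⟩ := hk'
  rw [div_eq_div_iff (hb.ne_zero h) (hd.ne_zero h)] at hx
  have := (ha.mul hd).eq h (hx ▸ hc.mul hb)
  omega

theorem exists_hasExtOrd (h : IsConstantExtension K L i) {v : Place K F} (hv : v.deg = 1)
    {x : E} (hx : x ≠ 0) : ∃ k, HasExtOrd L i v x k :=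
  have ⟨a, b, m, n, hab, ha, hb⟩ := h.exists_div_hasLeadingTerm v hv hx
  ⟨m - n, a, b, m, n, hab, ha, hb, rfl⟩

open scoped Classical in
/-- The extended valuation, as a function. -/
def extValFun (h : IsConstantExtension K L i) (v : Place K F) (hv : v.deg = 1) (x : E) : ℤᵐ⁰ :=
  if hx : x = 0 then 0 else exp (-(h.exists_hasExtOrd hv hx).choose)

theorem extValFun_of_hasExtOrd (h : IsConstantExtension K L i) {v : Place K F} (hv : v.deg = 1)
    {x : E} {k : ℤ} (hk : HasExtOrd L i v x k) : h.extValFun v hv x = exp (-k) := by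
  have hx : x ≠ 0 := by
    obtain ⟨a, b, m, n, rfl, ha, hb, -⟩ := hk
    exact div_ne_zero (ha.ne_zero h) (hb.ne_zero h)
  rw [extValFun, dif_neg hx, (h.exists_hasExtOrd hv hx).choose_spec.eq h hk]

theorem hasExtOrd_map {v : Place K F} {f : F} (hf : f ≠ 0) :
    HasExtOrd L i v (i f) (v.ord f) :=
  ⟨i f, i 1, v.ord f, v.ord 1, by simp, hasLeadingTerm_map hf, hasLeadingTerm_map one_ne_zero,
    by simp⟩

/-- The extended valuation. -/
def extVal (h : IsConstantExtension K L i) (v : Place K F) (hv : v.deg = 1) :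
    Valuation E ℤᵐ⁰ where
  toFun := h.extValFun v hv
  map_zero' := dif_pos rfl
  map_one' := by
    have h1 := h.extValFun_of_hasExtOrd hv (hasExtOrd_map (L := L) (i := i) (v := v) one_ne_zero)
    simpa using h1
  map_mul' x y := by
    rcases eq_or_ne x 0 with rfl | hx
    · simp [extValFun]
    rcases eq_or_ne y 0 with rfl | hy
    · simp [extValFun]
    obtain ⟨k, hk⟩ := h.exists_hasExtOrd hv hx
    obtain ⟨l, hl⟩ := h.exists_hasExtOrd hv hy
    rw [h.extValFun_of_hasExtOrd hv hk, h.extValFun_of_hasExtOrd hv hl, ← exp_add]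
    obtain ⟨a, b, m, n, rfl, ha, hb, rfl⟩ := hk
    obtain ⟨c, d, p, q, rfl, hc, hd, rfl⟩ := hl
    rw [h.extValFun_of_hasExtOrd hv (k := (m + p) - (n + q))
      ⟨a * c, b * d, m + p, n + q, div_mul_div_comm a b c d, ha.mul hc, hb.mul hd, rfl⟩]
    congr 1
    ring
  map_add_le_max' x y := by
    rcases eq_or_ne x 0 with rfl | hx
    · simp
    rcases eq_or_ne y 0 with rfl | hy
    · simp
    rcases eq_or_ne (x + y) 0 with hxy | hxy
    · simp [hxy, extValFun]
    obtain ⟨k, hk⟩ := h.exists_hasExtOrd hv hx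
    obtain ⟨l, hl⟩ := h.exists_hasExtOrd hv hy
    rw [h.extValFun_of_hasExtOrd hv hk, h.extValFun_of_hasExtOrd hv hl]
    obtain ⟨a, b, m, n, rfl, ha, hb, rfl⟩ := hk
    obtain ⟨c, d, p, q, rfl, hc, hd, rfl⟩ := hl
    have had := (ha.mul hd).mem_spanGE
    have hcb := (hc.mul hb).mem_spanGE
    have hnum : a * d + c * b ∈ spanGE L i v (min (m + q) (p + n)) :=
      add_mem (spanGE_anti (min_le_left _ _) had) (spanGE_anti (min_le_right _ _) hcb)
    have heq : a / b + c / d = (a * d + c * b) / (b * d) := by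
      rw [div_add_div _ _ (hb.ne_zero h) (hd.ne_zero h)]
      ring
    obtain ⟨N, hN⟩ := h.exists_hasLeadingTerm v hv
      (Submodule.span_mono (Set.image_subset_range _ _) hnum)
      (fun h0 => hxy (by rw [heq, h0, zero_div]))
    have hle := hN.le_of_mem h hnum
    rw [h.extValFun_of_hasExtOrd hv ⟨_, _, N, n + q, heq, hN, hb.mul hd, rfl⟩]
    rcases le_total (m - n) (p - q) with hc' | hc'
    · exact le_max_of_le_left (exp_le_exp.mpr (by omega))
    · exact le_max_of_le_right (exp_le_exp.mpr (by omega))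

theorem extVal_map (h : IsConstantExtension K L i) {v : Place K F} (hv : v.deg = 1) {f : F}
    (hf : f ≠ 0) : h.extVal v hv (i f) = exp (-v.ord f) :=
  h.extValFun_of_hasExtOrd hv (hasExtOrd_map hf)

theorem extVal_algebraMap_le_one (h : IsConstantExtension K L i) {v : Place K F} (hv : v.deg = 1)
    (c : L) : h.extVal v hv (algebraMap L E c) ≤ 1 := by
  rcases eq_or_ne c 0 with rfl | hc
  · simp
  have hlt : HasLeadingTerm L i v (algebraMap L E c) 0 :=
    ⟨c, 1, hc, one_ne_zero, v.ord_one, by simp [Algebra.smul_def]⟩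
  have hord : HasExtOrd L i v (algebraMap L E c) ((0 : ℤ) - v.ord (1 : F)) :=
    ⟨algebraMap L E c, i 1, 0, v.ord 1, by simp, hlt, hasLeadingTerm_map one_ne_zero, rfl⟩
  exact (h.extValFun_of_hasExtOrd hv hord).trans_le (by simp)

theorem exists_liesOverAlong (h : IsConstantExtension K L i)
    {v : Place K F} (hv : v.deg = 1) : ∃ w : Place L E, LiesOverAlong i w v := by
  have hK : ∀ c : L, algebraMap L E c ∈ (h.extVal v hv).valuationSubring := fun c =>
    h.extVal_algebraMap_le_one hv c
  have hmem : ∀ f : F, f ∈ v.toValuationSubring ↔ i f ∈ (h.extVal v hv).valuationSubring := by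
    intro f
    rcases eq_or_ne f 0 with rfl | hf
    · simp
    rw [mem_iff_ord_nonneg v hf, Valuation.mem_valuationSubring_iff, h.extVal_map hv hf,
      ← exp_zero, exp_le_exp]
    omega
  have htop : (h.extVal v hv).valuationSubring ≠ ⊤ := fun htop => v.ne_top' <| by
    refine SetLike.ext fun f => ⟨fun _ => ValuationSubring.mem_top f, fun _ => ?_⟩
    rw [hmem, htop]
    exact ValuationSubring.mem_top _
  exact ⟨placeOfValuation _ hK htop, SetLike.ext fun f => by
    rw [ValuationSubring.mem_comap]; exact hmem f⟩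

variable [IsAlgClosed K] [IsFunctionField K F] [IsFunctionField L E]

/-- The unique place of `E` over a place of `F`. -/
def placeExt (h : IsConstantExtension K L i) (v : Place K F) : Place L E :=
  (h.exists_liesOverAlong (deg_eq_one v)).choose

theorem liesOverAlong_placeExt (h : IsConstantExtension K L i) (v : Place K F) :
    LiesOverAlong i (h.placeExt v) v :=
  (h.exists_liesOverAlong (deg_eq_one v)).choose_spec

@[simp]
theorem ord_placeExt (h : IsConstantExtension K L i) (v : Place K F) (f : F) :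
    (h.placeExt v).ord (i f) = v.ord f :=
  h.ord_map_of_liesOverAlong (deg_eq_one v) (h.liesOverAlong_placeExt v) f

theorem placeExt_injective (h : IsConstantExtension K L i) :
    Function.Injective h.placeExt := fun v v' hvv => Place.ext <| by
  rw [h.liesOverAlong_placeExt v, h.liesOverAlong_placeExt v', hvv]

theorem eq_placeExt (h : IsConstantExtension K L i) {w : Place L E} {v : Place K F}
    (hw : LiesOverAlong i w v) : w = h.placeExt v :=
  h.liesOverAlong_unique (deg_eq_one v) hw (h.liesOverAlong_placeExt v)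

theorem eq_placeExt_of_forall_ord (h : IsConstantExtension K L i) {w : Place L E}
    {v : Place K F} (hw : ∀ f, w.ord (i f) = v.ord f) : w = h.placeExt v :=
  h.eq_placeExt (liesOverAlong_of_forall_ord hw)

/-- A place of `E` that is nontrivial on `F` is the extension of a place of `F`. -/
theorem exists_eq_placeExt_of_ord_ne_zero (h : IsConstantExtension K L i) {w : Place L E}
    {f : F} (hf : w.ord (i f) ≠ 0) : ∃ v, w = h.placeExt v := by
  have hK : ∀ a : K, algebraMap K F a ∈ w.toValuationSubring.comap i := fun a => by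
    rw [ValuationSubring.mem_comap, h.commutes]
    exact w.algebraMap_mem' _
  have htop : w.toValuationSubring.comap i ≠ ⊤ := fun htop => by
    have h1 : i f ∈ w.toValuationSubring := by
      rw [← ValuationSubring.mem_comap, htop]; exact ValuationSubring.mem_top _
    have h2 : i f⁻¹ ∈ w.toValuationSubring := by
      rw [← ValuationSubring.mem_comap, htop]; exact ValuationSubring.mem_top _
    have h1' := ord_nonneg_of_mem_place w h1
    have h2' := ord_nonneg_of_mem_place w h2
    rw [map_inv₀, w.ord_inv] at h2'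
    omega
  have hcomap : (w.adicValuation.comap i).valuationSubring = w.toValuationSubring.comap i := by
    refine SetLike.ext fun g => ?_
    rw [ValuationSubring.mem_comap, mem_iff_eq_zero_or_ord_nonneg w,
      Valuation.mem_valuationSubring_iff, Valuation.comap_apply, w.adicValuation_le_one_iff]
  exact ⟨placeOfValuation (w.adicValuation.comap i) (fun a => by rw [hcomap]; exact hK a)
    (by rw [hcomap]; exact htop), h.eq_placeExt hcomap⟩

end FermatLib.Curve.IsConstantExtension
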