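import Fermat.Agent.Curve.Descent.LaurentExt
import Fermat.Agent.Curve.ConstExt.PlaceExt
import Fermat.Agent.Curve.PlaceExpansion

/-!
Existence of constant field extensions of function fields, inside Laurent series.
-/

set_option autoImplicit false

noncomputable section

namespace FermatLib.Curve

open AlgebraicCurve ModularCurve

variable {K F : Type*} [Field K] [Field F] [Algebra K F]

/-- Precomposition of a constant extension with an isomorphism over the small field. -/
theorem IsConstantExtension.comp_algEquiv {L E F' : Type*} [Field L] [Algebra K L] [Field E]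
    [Algebra L E] [Field F'] [Algebra K F'] {i : F' →+* E} (h : IsConstantExtension K L i)
    (e : F ≃ₐ[K] F') : IsConstantExtension K L (i.comp (e : F →+* F')) where
  commutes a := by simpa using h.commutes a
  linearIndependent_fin {n v} hv :=
    h.linearIndependent_fin (hv.map' e.toLinearMap (LinearMap.ker_eq_bot.mpr e.injective))
  adjoin_eq_top := by
    rw [show Set.range (i.comp (e : F →+* F')) = Set.range i from
      e.surjective.range_comp i]
    exact h.adjoin_eq_top

/-- The Laurent expansion at a rational place, extended to the whole field. -/
theorem exists_laurentExpansion (v : Place K F) (hv : v.deg = 1) :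
    Nonempty (F →ₐ[K] LaurentSeries K) := by
  obtain ⟨π, hπ⟩ := IsDiscreteValuationRing.exists_irreducible v.toValuationSubring
  let g : v.toValuationSubring →+* LaurentSeries K :=
    (HahnSeries.ofPowerSeries ℤ K).comp (expand v hv hπ).toRingHom
  have hg : Function.Injective g :=
    HahnSeries.ofPowerSeries_injective.comp (expand_injective v hv hπ)
  let φ : F →+* LaurentSeries K := IsFractionRing.lift hg
  have hcomm : ∀ a : K, φ (algebraMap K F a) = algebraMap K (LaurentSeries K) a := fun a => by
    rw [IsScalarTower.algebraMap_apply K v.toValuationSubring F]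
    show IsFractionRing.lift hg _ = _
    rw [IsFractionRing.lift_algebraMap]
    show HahnSeries.ofPowerSeries ℤ K (expand v hv hπ (algebraMap K _ a)) = _
    rw [AlgHom.commutes, algebraMap_laurentSeries_eq_single, PowerSeries.algebraMap_eq,
      HahnSeries.ofPowerSeries_C]
    rfl
  exact ⟨{ φ with commutes' := hcomm }⟩

/-- A function field of one variable over an algebraically closed field has an extension of
constants to any algebraically closed field. -/
theorem exists_isConstantExtension (K : Type*) (L : Type*) (F : Type*) [Field K] [Field L]
    [Algebra K L] [Field F] [Algebra K F] [IsAlgClosed K] [IsFunctionField K F] :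
    ∃ (E : IntermediateField L (LaurentSeries L)) (i : F →+* E),
      IsConstantExtension K L i ∧ IsFunctionField L E := by
  obtain ⟨x, hx, hfin⟩ := ‹IsFunctionField K F›.exists_transcendental
  obtain ⟨v, -⟩ := exists_place_ord_pos (K := K) hx
  obtain ⟨φ⟩ := exists_laurentExpansion v (deg_eq_one v)
  let E := IntermediateField.adjoin L
    (coeffMap (algebraMap K L) '' (φ.fieldRange : Set (LaurentSeries K)))
  have hFE : ∀ f ∈ φ.fieldRange, coeffMap (algebraMap K L) f ∈ E := fun f hf =>
    IntermediateField.subset_adjoin L _ ⟨f, hf, rfl⟩
  let e : F ≃ₐ[K] φ.fieldRange := AlgEquiv.ofInjectiveField φ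
  let i : F →+* E := (seriesFieldMap φ.fieldRange E hFE).comp (e : F →+* φ.fieldRange)
  have h : IsConstantExtension K L i :=
    (isConstantExtension_seriesFieldMap φ.fieldRange E rfl hFE).comp_algEquiv e
  have := hfin
  obtain ⟨hfinE, -⟩ := h.finite_and_finrank_eq hx
  exact ⟨E, i, h, IsFunctionField.of_transcendental (h.transcendental_map hx)⟩

end FermatLib.Curve
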