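import Fermat.Agent.Curve.Descent.ConstExt
import Fermat.Agent.Curve.FunctionField

/-!
Recognition of constant field extensions from a plane model with coefficients in the small field.
-/

set_option autoImplicit false

noncomputable section

open scoped IntermediateField
open Polynomial

namespace FermatLib.Curve

variable {K₀ K E : Type*} [Field K₀] [Field K] [Field E] [Algebra K₀ K] [Algebra K₀ E]
  [Algebra K E] [IsScalarTower K₀ K E]

/-- Common denominator for finitely many elements of `K₀(x)`. -/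
theorem exists_common_denominator {ι : Type*} {x : E} (hx : Transcendental K₀ x) (s : Finset ι)
    (c : ι → E) (hc : ∀ k ∈ s, c k ∈ K₀⟮x⟯) :
    ∃ q : K₀[X], q ≠ 0 ∧ ∀ k ∈ s, ∃ p : K₀[X], aeval x q * c k = aeval x p := by
  classical
  induction s using Finset.induction with
  | empty => exact ⟨1, one_ne_zero, by simp⟩
  | insert a s ha ih =>
    obtain ⟨q, hq, hqs⟩ := ih fun k hk => hc k (Finset.mem_insert_of_mem hk)
    obtain ⟨r, t, hrt⟩ := (IntermediateField.mem_adjoin_simple_iff _ _).mp
      (hc a (Finset.mem_insert_self a s))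
    rcases eq_or_ne t 0 with rfl | ht
    · refine ⟨q, hq, fun k hk => ?_⟩
      rcases Finset.mem_insert.mp hk with rfl | hk
      · exact ⟨0, by simp [hrt]⟩
      · exact hqs k hk
    refine ⟨q * t, mul_ne_zero hq ht, fun k hk => ?_⟩
    rcases Finset.mem_insert.mp hk with rfl | hk
    · refine ⟨q * r, ?_⟩
      have ht' : aeval x t ≠ 0 := fun h0 => ht (transcendental_iff.mp hx t h0)
      rw [map_mul, map_mul, hrt, mul_assoc, mul_div_cancel₀ _ ht']
    · obtain ⟨p, hp⟩ := hqs k hk
      exact ⟨p * t, by rw [map_mul, map_mul, ← hp]; ring⟩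

/-- If `E = K(x, θ)` with `1, θ, …, θ^(d-1)` independent over `K(x)` and `θ` killed by a monic
polynomial of degree `d` over `K₀(x)`, then `K₀(x, θ) ⊆ E` is an extension of constants. -/
theorem isConstantExtension_val_adjoin {x θ : E} {d : ℕ} (hx : Transcendental K x)
    (hind : LinearIndependent K⟮x⟯ fun k : Fin d => θ ^ (k : ℕ))
    (hgen : IntermediateField.adjoin K ({x, θ} : Set E) = ⊤)
    {P : E[X]} (hP : P.Monic) (hPd : P.natDegree ≤ d)
    (hPc : ∀ n, P.coeff n ∈ K₀⟮x⟯) (hPθ : P.eval θ = 0) :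
    IsConstantExtension K₀ K (IntermediateField.adjoin K₀ ({x, θ} : Set E)).val.toRingHom ∧
      IsFunctionField K₀ (IntermediateField.adjoin K₀ ({x, θ} : Set E)) := by
  classical
  set F₀ := IntermediateField.adjoin K₀ ({x, θ} : Set E) with hF₀
  have hx₀ : Transcendental K₀ x := hx.restrictScalars (algebraMap K₀ K).injective
  -- the monic equation over `K₀(x)`
  obtain ⟨P₀, hP₀, hP₀m, hP₀d⟩ : ∃ P₀ : K₀⟮x⟯[X], P₀.map (algebraMap K₀⟮x⟯ E) = P ∧
      P₀.Monic ∧ P₀.natDegree = P.natDegree := by
    obtain ⟨P₀, h1, h2, h3⟩ := lifts_and_natDegree_eq_and_monic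
      (f := algebraMap K₀⟮x⟯ E) (p := P)
      ((lifts_iff_coeff_lifts P).mpr fun n => ⟨⟨_, hPc n⟩, rfl⟩) hP
    exact ⟨P₀, h1, h3, h2⟩
  have hev : aeval θ P₀ = 0 := by
    rw [aeval_def, eval₂_eq_eval_map, hP₀, hPθ]
  have hint : IsIntegral K₀⟮x⟯ θ := ⟨P₀, hP₀m, by rw [← aeval_def]; exact hev⟩
  have hFeq : F₀ = (K₀⟮x⟯⟮θ⟯).restrictScalars K₀ := by
    rw [IntermediateField.adjoin_adjoin_left, hF₀]
    congr 1
  have hspan : ∀ a ∈ F₀, ∃ c : Fin d → E, (∀ k, c k ∈ K₀⟮x⟯) ∧
      a = ∑ k : Fin d, c k * θ ^ (k : ℕ) := by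
    intro a ha
    rw [hFeq, IntermediateField.mem_restrictScalars,
      ← IntermediateField.mem_toSubalgebra,
      IntermediateField.adjoin_simple_toSubalgebra_of_isAlgebraic hint.isAlgebraic,
      Algebra.adjoin_singleton_eq_range_aeval, AlgHom.mem_range] at ha
    obtain ⟨r, rfl⟩ := ha
    have hr : aeval θ r = aeval θ (r %ₘ P₀) := by
      conv_lhs => rw [← modByMonic_add_div r P₀]
      simp [hev]
    refine ⟨fun k => ((r %ₘ P₀).coeff k : E), fun k => ((r %ₘ P₀).coeff k).2, ?_⟩
    change aeval θ r = _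
    rw [hr]
    rcases Nat.eq_zero_or_pos d with hd0 | hd0
    · have h1 : P₀ = 1 := hP₀m.natDegree_eq_zero.mp (by omega)
      subst hd0
      simp [h1]
    rw [aeval_eq_sum_range' (n := d), Finset.sum_range]
    · rfl
    · rcases eq_or_ne P₀ 1 with h1 | h1
      · simp [h1, hd0]
      · have := natDegree_modByMonic_lt r hP₀m h1
        omega
  refine ⟨⟨fun a => ?_, ?_, ?_⟩, ?_⟩
  · show algebraMap K₀ E a = _
    exact IsScalarTower.algebraMap_apply K₀ K E a
  · intro n v hv
    choose c hc hvc using fun j => hspan (v j : E) (v j).2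
    obtain ⟨q, hq, hqc⟩ := exists_common_denominator hx₀ Finset.univ
      (fun jk : Fin n × Fin d => c jk.1 jk.2) fun jk _ => hc _ _
    choose p hp using fun jk => hqc jk (Finset.mem_univ jk)
    have hD : aeval x q ≠ 0 := fun h0 => hq (transcendental_iff.mp hx₀ q h0)
    have hDv : ∀ j, aeval x q * (v j : E) = ∑ k : Fin d, aeval x (p (j, k)) * θ ^ (k : ℕ) :=
      fun j => by
        rw [hvc, Finset.mul_sum]
        exact Finset.sum_congr rfl fun k _ => by rw [← mul_assoc]; exact congrArg (· * _) (hp (j, k))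
    -- coefficient vectors of the `v j`
    have hvec : LinearIndependent K₀ fun (j : Fin n) (kn : Fin d × ℕ) =>
        (p (j, kn.1)).coeff kn.2 := by
      rw [Fintype.linearIndependent_iff] at hv ⊢
      intro a ha
      refine hv a (Subtype.ext ?_)
      have hpol : ∀ k, ∑ j, a j • p (j, k) = 0 := fun k => Polynomial.ext fun m => by
        simpa [finsetSum_coeff] using congrFun ha (k, m)
      have hzero : aeval x q * ∑ j, algebraMap K₀ E (a j) * (v j : E) = 0 := by
        rw [Finset.mul_sum]
        simp only [mul_left_comm _ (algebraMap K₀ E _), hDv, Finset.mul_sum, ← mul_assoc]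
        rw [Finset.sum_comm]
        refine Finset.sum_eq_zero fun k _ => ?_
        rw [← Finset.sum_mul]
        have := congrArg (aeval x) (hpol k)
        rw [map_sum, map_zero] at this
        simp only [map_smul] at this
        simp only [Algebra.smul_def] at this
        rw [this, zero_mul]
      have := (mul_eq_zero.mp hzero).resolve_left hD
      rw [ZeroMemClass.coe_zero, ← this, AddSubmonoidClass.coe_finsetSum]
      exact Finset.sum_congr rfl fun j _ => by rw [IntermediateField.coe_smul, Algebra.smul_def]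
    have hK := linearIndependent_vecMap (L := K) hvec
    rw [Fintype.linearIndependent_iff] at hK ⊢
    intro a ha
    refine hK a ?_
    have hsum : ∑ j, a j • (v j : E) = 0 := ha
    have hk : ∀ k : Fin d, aeval x (∑ j, C (a j) * (p (j, k)).map (algebraMap K₀ K)) = 0 := by
      have h0 : ∑ k : Fin d, (aeval x (∑ j, C (a j) * (p (j, k)).map (algebraMap K₀ K))) *
          θ ^ (k : ℕ) = 0 := by
        simp only [map_sum, map_mul, aeval_C, aeval_map_algebraMap, Finset.sum_mul, mul_assoc]
        rw [Finset.sum_comm]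
        simp only [← Finset.mul_sum, ← hDv]
        simp only [mul_left_comm _ (aeval x q), ← Finset.mul_sum, ← Algebra.smul_def]
        rw [hsum, mul_zero]
      have hmem : ∀ P : K[X], aeval x P ∈ K⟮x⟯ := fun P =>
        IntermediateField.algebra_adjoin_le_adjoin K {x} (aeval_mem_adjoin_singleton K x)
      intro k
      have := Fintype.linearIndependent_iff.mp hind
        (fun k => ⟨_, hmem (∑ j, C (a j) * (p (j, k)).map (algebraMap K₀ K))⟩) (by
          simp only [Algebra.smul_def]
          exact h0) k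
      exact congrArg Subtype.val this
    funext kn
    have := congrArg (fun P : K[X] => P.coeff kn.2) (transcendental_iff.mp hx _ (hk kn.1))
    simpa [finsetSum_coeff] using this
  · rw [eq_top_iff, ← hgen, IntermediateField.adjoin_le_iff]
    intro y hy
    exact IntermediateField.subset_adjoin K _ ⟨⟨y, IntermediateField.subset_adjoin K₀ _ hy⟩, rfl⟩
  · let x₀ : F₀ := ⟨x, IntermediateField.subset_adjoin K₀ _ (Set.mem_insert _ _)⟩
    have hx₀' : Transcendental K₀ x₀ :=
      (transcendental_algebraMap_iff (A := E) (algebraMap F₀ E).injective).mp hx₀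
    have : FiniteDimensional K₀⟮x₀⟯ F₀ := by
      let θ₀ : F₀ := ⟨θ, IntermediateField.subset_adjoin K₀ _ (Set.mem_insert_of_mem _ rfl)⟩
      refine Module.Finite.of_fg_top ?_
      refine ⟨(Finset.range d).image fun k => θ₀ ^ k, eq_top_iff.mpr fun a _ => ?_⟩
      obtain ⟨c, hc, hac⟩ := hspan (a : E) a.2
      have hlift : ∀ k : Fin d, ∃ c₀ : K₀⟮x₀⟯, ((c₀ : F₀) : E) = c k := fun k => by
        have hmap : K₀⟮x₀⟯.map F₀.val = K₀⟮x⟯ := by
          rw [IntermediateField.adjoin_map, Set.image_singleton]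
          rfl
        have h1 : c k ∈ K₀⟮x₀⟯.map F₀.val := hmap.symm ▸ hc k
        obtain ⟨c₀, hc₀, he⟩ := h1
        exact ⟨⟨c₀, hc₀⟩, he⟩
      choose c₀ hc₀ using hlift
      have ha : a = ∑ k : Fin d, c₀ k • θ₀ ^ (k : ℕ) := Subtype.ext <| by
        rw [AddSubmonoidClass.coe_finsetSum, hac]
        exact Finset.sum_congr rfl fun k _ => by
          rw [← hc₀ k]
          rfl
      rw [ha]
      exact sum_mem fun k _ => Submodule.smul_mem _ _
        (Submodule.subset_span (Finset.mem_coe.mpr (Finset.mem_image.mpr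
          ⟨k, Finset.mem_range.mpr k.2, rfl⟩)))
    exact IsFunctionField.of_transcendental hx₀'

end FermatLib.Curve
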