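import Fermat.Agent.Curve.ConstExt.TorsionDescent
import Fermat.Agent.Curve.ConstExt.Recognition
import Mathlib.RingTheory.Algebraic.Cardinality
import Mathlib.FieldTheory.PrimitiveElement

/-!
A function field over an algebraically closed field of characteristic zero comes, together with
any given finite set of places, from a countable algebraically closed subfield.
-/

set_option autoImplicit false

noncomputable section

open scoped IntermediateField
open Polynomial AlgebraicCurve

namespace FermatLib.Curve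

/-- The algebraic closure in `K` of a countable subset. -/
theorem exists_countable_isAlgClosed_superset {K : Type*} [Field K] [CharZero K] [IsAlgClosed K]
    (T : Set K) (hT : T.Countable) :
    ∃ K₀ : IntermediateField ℚ K, T ⊆ K₀ ∧ Countable K₀ ∧ IsAlgClosed K₀ := by
  let A := IntermediateField.adjoin ℚ T
  refine ⟨(algebraicClosure A K).restrictScalars ℚ, fun t ht => ?_, ?_, ?_⟩
  · show t ∈ algebraicClosure A K
    exact mem_algebraicClosure_iff.mpr
      (isAlgebraic_algebraMap (⟨t, IntermediateField.subset_adjoin ℚ T ht⟩ : A))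
  · have hA : Countable A := by
      rw [← Cardinal.mk_le_aleph0_iff]
      have h1 := IntermediateField.lift_cardinalMk_adjoin_le ℚ T
      have h2 : Cardinal.mk T ≤ Cardinal.aleph0 := Cardinal.le_aleph0_iff_set_countable.mpr hT
      simpa [Cardinal.mkRat, h2] using h1
    show Countable (algebraicClosure A K)
    rw [← Cardinal.mk_le_aleph0_iff]
    have hA' : Cardinal.mk A ≤ Cardinal.aleph0 := Cardinal.mk_le_aleph0_iff.mpr hA
    exact (Algebra.IsAlgebraic.cardinalMk_le_max A (algebraicClosure A K)).trans (max_le hA' le_rfl)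
  · show IsAlgClosed (algebraicClosure A K)
    exact (algebraicClosure.isAlgClosure A K).isAlgClosed

/-- Countable models of function fields with prescribed places. -/
theorem exists_countable_model {K E : Type*} [Field K] [Field E] [Algebra K E] [IsAlgClosed K]
    [CharZero K] [IsFunctionField K E] (S : Finset (Place K E)) :
    ∃ (K₀ : IntermediateField ℚ K) (_ : IsAlgClosed K₀) (F₀ : IntermediateField K₀ E)
      (_ : IsFunctionField K₀ F₀) (h : IsConstantExtension K₀ K F₀.val.toRingHom),
      Countable K₀ ∧ ∀ w ∈ S, ∃ v, w = h.placeExt v := by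
  classical
  obtain ⟨x, hx, hfin⟩ := ‹IsFunctionField K E›.exists_transcendental
  have : CharZero E := charZero_of_injective_algebraMap (algebraMap K E).injective
  obtain ⟨θ, hθ⟩ := Field.exists_primitive_element K⟮x⟯ E
  set P := minpoly K⟮x⟯ θ with hPdef
  have hint : IsIntegral K⟮x⟯ θ := IsIntegral.of_finite _ _
  have hc : ∀ n, ∃ r s : K[X], (P.coeff n : E) = aeval x r / aeval x s := fun n =>
    (IntermediateField.mem_adjoin_simple_iff _ _).mp (P.coeff n).2
  choose r s hrs using hc
  have ha : ∀ w : Place K E, ∃ a : K, 0 ≤ w.ord x → x - algebraMap K E a = 0 ∨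
      0 < w.ord (x - algebraMap K E a) := fun w => by
    by_cases h0 : 0 ≤ w.ord x
    · obtain ⟨a, ha⟩ := exists_sub_smul_mem_ordGE w (deg_eq_one w) one_ne_zero w.ord_one
        (mem_ordGE_of_le (v := w) (n := 0) h0)
      rw [← Algebra.algebraMap_eq_smul_one, zero_add, mem_ordGE] at ha
      exact ⟨a, fun _ => ha.imp_right fun h => by omega⟩
    · exact ⟨0, fun h => absurd h h0⟩
  choose a ha using ha
  let T : Set K := (⋃ n, Set.range (r n).coeff ∪ Set.range (s n).coeff) ∪ (a '' (S : Set (Place K E)))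
  have hT : T.Countable :=
    (Set.countable_iUnion fun n => (Set.countable_range _).union (Set.countable_range _)).union
      (S.finite_toSet.image a).countable
  obtain ⟨K₀, hTK, hcount, hclosed⟩ := exists_countable_isAlgClosed_superset T hT
  have hlift : ∀ p : K[X], (∀ m, p.coeff m ∈ K₀) → ∃ p₀ : K₀[X], p₀.map (algebraMap K₀ K) = p :=
    fun p hp => (lifts_iff_coeff_lifts p).mpr fun m => ⟨⟨_, hp m⟩, rfl⟩
  have hcoeff : ∀ n, (P.map (algebraMap K⟮x⟯ E)).coeff n ∈ K₀⟮x⟯ := fun n => by
    obtain ⟨r₀, hr₀⟩ := hlift (r n) fun m =>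
      hTK (Or.inl (Set.mem_iUnion.mpr ⟨n, Or.inl ⟨m, rfl⟩⟩))
    obtain ⟨s₀, hs₀⟩ := hlift (s n) fun m =>
      hTK (Or.inl (Set.mem_iUnion.mpr ⟨n, Or.inr ⟨m, rfl⟩⟩))
    rw [coeff_map]
    refine (IntermediateField.mem_adjoin_simple_iff _ _).mpr ⟨r₀, s₀, ?_⟩
    show (P.coeff n : E) = _
    rw [hrs, ← hr₀, ← hs₀, aeval_map_algebraMap, aeval_map_algebraMap]
  have hind : LinearIndependent K⟮x⟯ fun k : Fin P.natDegree => θ ^ (k : ℕ) :=
    linearIndependent_pow θ
  have hgen : IntermediateField.adjoin K ({x, θ} : Set E) = ⊤ := by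
    have h1 : (K⟮x⟯⟮θ⟯).restrictScalars K = ⊤ := by rw [hθ]; rfl
    rw [IntermediateField.adjoin_adjoin_left] at h1
    rw [← h1]
    congr 1
  obtain ⟨h, hF₀⟩ := isConstantExtension_val_adjoin (K₀ := K₀) hx hind hgen
    ((minpoly.monic hint).map _) natDegree_map_le hcoeff
    (by rw [eval_map, ← aeval_def]; exact minpoly.aeval _ θ)
  refine ⟨K₀, hclosed, IntermediateField.adjoin K₀ ({x, θ} : Set E), hF₀, h, hcount, fun w hw => ?_⟩
  let F₀ := IntermediateField.adjoin K₀ ({x, θ} : Set E)
  let x₀ : F₀ := ⟨x, IntermediateField.subset_adjoin K₀ _ (Set.mem_insert _ _)⟩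
  rcases lt_or_ge (w.ord x) 0 with hneg | hpos
  · exact h.exists_eq_placeExt_of_ord_ne_zero (f := x₀) (by show w.ord x ≠ 0; omega)
  · have ha' := (ha w hpos).resolve_left fun h0 => hx (by
      rw [sub_eq_zero.mp h0]; exact isAlgebraic_algebraMap _)
    let b : K₀ := ⟨a w, hTK (Or.inr ⟨w, hw, rfl⟩)⟩
    refine h.exists_eq_placeExt_of_ord_ne_zero (f := x₀ - algebraMap K₀ F₀ b) ?_
    show w.ord (x - algebraMap K E (a w)) ≠ 0
    omega

namespace IsConstantExtension

variable {K L F E : Type*} [Field K] [Field L] [Algebra K L] [Field F] [Algebra K F]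
  [Field E] [Algebra L E] {i : F →+* E} [IsAlgClosed K] [IsAlgClosed L] [IsFunctionField K F]
  [IsFunctionField L E]

/-- A class supported on extended places comes from below. -/
theorem mk_mem_range_pic0Map (h : IsConstantExtension K L i)
    (D : Divisor.degZero (K := L) (F := E))
    (hD : ∀ w ∈ (D : Divisor L E).support, ∃ v, w = h.placeExt v) :
    Pic0.mk D ∈ h.pic0Map.range := by
  obtain ⟨D₀, hD₀⟩ := h.exists_divisorExt_eq hD
  have hdeg : D₀ ∈ Divisor.degZero (K := K) (F := F) := by
    rw [Divisor.mem_degZero, ← h.degree_divisorExt, hD₀, Divisor.mem_degZero.mp D.2]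
  exact ⟨Pic0.mk ⟨D₀, hdeg⟩, by rw [pic0Map_mk]; exact congrArg Pic0.mk (Subtype.ext hD₀)⟩

end IsConstantExtension

/-- Finitely many classes come from a common countable model. -/
theorem exists_countable_model_classes {K E : Type*} [Field K] [Field E] [Algebra K E]
    [IsAlgClosed K] [CharZero K] [IsFunctionField K E] (C : Finset (Pic0 K E)) :
    ∃ (K₀ : IntermediateField ℚ K) (_ : IsAlgClosed K₀) (F₀ : IntermediateField K₀ E)
      (_ : IsFunctionField K₀ F₀) (h : IsConstantExtension K₀ K F₀.val.toRingHom),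
      Countable K₀ ∧ ∀ c ∈ C, c ∈ h.pic0Map.range := by
  classical
  choose D hD using Pic0.mk_surjective (K := K) (F := E)
  obtain ⟨K₀, hK₀, F₀, hF₀, h, hcount, hS⟩ :=
    exists_countable_model (C.biUnion fun c => ((D c : Divisor K E)).support)
  refine ⟨K₀, hK₀, F₀, hF₀, h, hcount, fun c hc => ?_⟩
  rw [← hD c]
  exact h.mk_mem_range_pic0Map (D c) fun w hw => hS w (Finset.mem_biUnion.mpr ⟨c, hc, hw⟩)

end FermatLib.Curve
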