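import Fermat.Agent.Curve.ConstExt.Invariance
import Fermat.Agent.Curve.ConstExt.Construct
import Fermat.Agent.Curve.ConstExt.CountableModel
import Mathlib.Analysis.Complex.Cardinality
import Mathlib.FieldTheory.IsAlgClosed.Classification

/-!
Transfer of the torsion count from `ℂ` to every algebraically closed field of characteristic zero.
-/

set_option autoImplicit false

noncomputable section

open AlgebraicCurve

namespace FermatLib.Curve

universe u v

/-- A countable field of characteristic zero embeds in `ℂ`. -/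
theorem nonempty_ringHom_complex (K : Type u) [Field K] [CharZero K] [Countable K] :
    Nonempty (K →+* ℂ) := by
  obtain ⟨s, hs⟩ := exists_isTranscendenceBasis ℚ K
  obtain ⟨t, ht⟩ := exists_isTranscendenceBasis ℚ ℂ
  have hC : Cardinal.aleph0 < Cardinal.mk ℂ := by
    rw [Cardinal.mk_complex]
    exact Cardinal.aleph0_lt_continuum
  have hts : Cardinal.mk ℂ = Cardinal.mk t :=
    IsAlgClosed.cardinal_eq_cardinal_transcendence_basis_of_aleph0_lt' _ ht (by simp) hC
  have : Infinite t := Cardinal.infinite_iff.mpr (hts ▸ hC.le)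
  obtain ⟨e, he⟩ := Countable.exists_injective_nat s
  let y : s → ℂ := fun j => (Infinite.natEmbedding t (e j) : ℂ)
  have hy : AlgebraicIndependent ℚ y :=
    ht.1.comp (fun j => Infinite.natEmbedding t (e j)) ((Infinite.natEmbedding t).injective.comp he)
  letI aK : Algebra (MvPolynomial s ℚ) K :=
    (MvPolynomial.aeval ((↑) : s → K)).toRingHom.toAlgebra
  letI aC : Algebra (MvPolynomial s ℚ) ℂ := (MvPolynomial.aeval y).toRingHom.toAlgebra
  have : FaithfulSMul (MvPolynomial s ℚ) K :=
    (faithfulSMul_iff_algebraMap_injective _ _).mpr hs.1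
  have : FaithfulSMul (MvPolynomial s ℚ) ℂ :=
    (faithfulSMul_iff_algebraMap_injective _ _).mpr hy
  have : Algebra.IsAlgebraic (MvPolynomial s ℚ) K := by
    refine ⟨fun z => ?_⟩
    have h1 := hs.isAlgebraic
    refine IsAlgebraic.of_ringHom_of_comp_eq (f := hs.1.aevalEquiv.toAlgHom.toRingHom)
      (g := RingHom.id K) (h1.isAlgebraic z) hs.1.aevalEquiv.surjective Function.injective_id ?_
    ext p <;> rfl
  exact ⟨(IsAlgClosed.lift : K →ₐ[MvPolynomial s ℚ] ℂ).toRingHom⟩

variable {K : Type u} {F : Type v} [Field K] [Field F] [Algebra K F] [IsAlgClosed K] [CharZero K]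
  [IsFunctionField K F]

/-- **Transfer from `ℂ`.** If function fields over `ℂ` have `n ^ (2 g)` points of order dividing
`n`, then so does every function field over an algebraically closed field of characteristic zero. -/
theorem natCard_torsion_eq_pow_of_complex {n : ℕ} (hn : n ≠ 0)
    (hC : ∀ (E : Type) [Field E] [Algebra ℂ E] [IsFunctionField ℂ E],
      Nat.card (Pic0.torsion ℂ E n) = n ^ (2 * genusFF ℂ E)) :
    Nat.card (Pic0.torsion K F n) = n ^ (2 * genusFF K F) := by
  classical
  -- every finite set of torsion classes lies in the injective image of a set with `n ^ (2g)` points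
  have key : ∀ C : Finset (Pic0.torsion K F n), ∃ (A : Type v) (f : A → Pic0.torsion K F n),
      Nat.card A = n ^ (2 * genusFF K F) ∧ Function.Injective f ∧ ∀ c ∈ C, c ∈ Set.range f := by
    intro C
    obtain ⟨K₀, hK₀, F₀, hF₀, h, hcount, hrange⟩ :=
      exists_countable_model_classes (C.image Subtype.val)
    obtain ⟨emb⟩ := nonempty_ringHom_complex K₀
    letI := emb.toAlgebra
    obtain ⟨E, i, hi, hE⟩ := exists_isConstantExtension K₀ ℂ F₀
    have hcard := hC E
    have hg : genusFF ℂ E = genusFF K F := by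
      rw [hi.genusFF_eq, h.genusFF_eq]
    have hA : Nat.card (Pic0.torsion K₀ F₀ n) = n ^ (2 * genusFF K F) := by
      rw [hi.natCard_torsion_eq (pow_ne_zero _ hn) hcard, hg]
    refine ⟨Pic0.torsion K₀ F₀ n, h.torsionMap n, hA, fun a b hab => Subtype.ext
      (h.pic0Map_injective (congrArg Subtype.val hab)), fun c hc => ?_⟩
    obtain ⟨d, hd⟩ := hrange _ (Finset.mem_image_of_mem _ hc)
    refine ⟨⟨d, Pic0.mem_torsion.mpr (h.pic0Map_injective ?_)⟩, Subtype.ext hd⟩
    rw [map_zsmul, hd, map_zero, Pic0.mem_torsion.mp c.2]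
  have hle : ∀ C : Finset (Pic0.torsion K F n), C.card ≤ n ^ (2 * genusFF K F) := fun C => by
    obtain ⟨A, f, hA, hf, hCA⟩ := key C
    have : Finite A := Nat.finite_of_card_ne_zero (by rw [hA]; exact pow_ne_zero _ hn)
    rw [← hA, ← Nat.card_range_of_injective hf, ← Set.ncard_coe_finset C, Nat.card_coe_set_eq]
    exact Set.ncard_le_ncard (fun c hc => hCA c hc) (Set.finite_range f)
  have hfin : Finite (Pic0.torsion K F n) := by
    by_contra hinf
    rw [not_finite_iff_infinite] at hinf
    obtain ⟨C, hC'⟩ := Infinite.exists_subset_card_eq (Pic0.torsion K F n)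
      (n ^ (2 * genusFF K F) + 1)
    have := hle C
    omega
  have := Fintype.ofFinite (Pic0.torsion K F n)
  obtain ⟨A, f, hA, hf, hCA⟩ := key Finset.univ
  rw [← hA]
  exact (Nat.card_eq_of_bijective f ⟨hf, fun c => hCA c (Finset.mem_univ c)⟩).symm

end FermatLib.Curve
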