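import Fermat.Agent.Curve.ConstExt.TorsionDescent
import Fermat.Agent.Curve.RepartitionQuot

/-!
Constant field extensions preserve the genus, given the Riemann theorem in large degree.
-/

set_option autoImplicit false

noncomputable section

namespace FermatLib.Curve.IsConstantExtension

open AlgebraicCurve

variable {K L F E : Type*} [Field K] [Field L] [Algebra K L] [Field F] [Algebra K F]
  [Field E] [Algebra L E] {i : F →+* E} [IsAlgClosed K] [IsAlgClosed L] [IsFunctionField K F]
  [IsFunctionField L E]

/-- If `l(D) = deg D + 1 - g` in large degree on both sides, the two values of `g` agree. -/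
theorem eq_of_finrank_riemannRochSpace (h : IsConstantExtension K L i) {g g' N N' : ℤ}
    (hF : ∀ D : Divisor K F, N ≤ Divisor.degree D →
      (Module.finrank K (riemannRochSpace D) : ℤ) = Divisor.degree D + 1 - g)
    (hE : ∀ D : Divisor L E, N' ≤ Divisor.degree D →
      (Module.finrank L (riemannRochSpace D) : ℤ) = Divisor.degree D + 1 - g') : g = g' := by
  obtain ⟨P⟩ := nonempty_place (K := K) (F := F)
  set D : Divisor K F := Finsupp.single P (max N N') with hD
  have hdeg : Divisor.degree D = max N N' := by simp [hD, deg_eq_one]
  have h1 := hF D (by rw [hdeg]; exact le_max_left _ _)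
  have h2 := hE (h.divisorExt D) (by rw [degree_divisorExt, hdeg]; exact le_max_right _ _)
  rw [degree_divisorExt, h.finrank_riemannRochSpace_divisorExt D] at h2
  omega

omit [IsAlgClosed K] [IsFunctionField K F] in
/-- The Riemann theorem gives the hypothesis of the torsion descent. -/
theorem exists_riemannRochSpace_ne_bot {g N : ℤ}
    (hE : ∀ D : Divisor L E, N ≤ Divisor.degree D →
      (Module.finrank L (riemannRochSpace D) : ℤ) = Divisor.degree D + 1 - g)
    (G : Divisor L E) (R : Place L E) :
    ∃ m : ℕ, riemannRochSpace (G + Finsupp.single R (m : ℤ)) ≠ ⊥ := by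
  refine ⟨(max N g - Divisor.degree G).toNat, fun hbot => ?_⟩
  have h1 := hE (G + Finsupp.single R ((max N g - Divisor.degree G).toNat : ℤ))
    (by simp [deg_eq_one]; omega)
  rw [hbot, finrank_bot, map_add, Divisor.degree_single, deg_eq_one] at h1
  push_cast at h1
  omega

end FermatLib.Curve.IsConstantExtension
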