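import Fermat.Agent.Curve.ConstExt.PlaceExt
import Fermat.Agent.Curve.Descent.AutFixed

/-!
Constant field extensions: the maps on divisors and on `Pic⁰`.
-/

set_option autoImplicit false

noncomputable section

namespace FermatLib.Curve.IsConstantExtension

open AlgebraicCurve

variable {K L F E : Type*} [Field K] [Field L] [Algebra K L] [Field F] [Algebra K F]
  [Field E] [Algebra L E] {i : F →+* E} [IsAlgClosed K] [IsFunctionField K F]
  [IsFunctionField L E]

/-- The extension of divisors. -/
def divisorExt (h : IsConstantExtension K L i) : Divisor K F →+ Divisor L E :=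
  Finsupp.mapDomain.addMonoidHom h.placeExt

theorem divisorExt_single (h : IsConstantExtension K L i) (v : Place K F) (n : ℤ) :
    h.divisorExt (Finsupp.single v n) = Finsupp.single (h.placeExt v) n :=
  Finsupp.mapDomain_single

@[simp]
theorem divisorExt_apply_placeExt (h : IsConstantExtension K L i) (D : Divisor K F)
    (v : Place K F) : h.divisorExt D (h.placeExt v) = D v :=
  Finsupp.mapDomain_apply h.placeExt_injective D v

theorem divisorExt_apply_eq_zero (h : IsConstantExtension K L i) (D : Divisor K F)
    {w : Place L E} (hw : ∀ v, w ≠ h.placeExt v) : h.divisorExt D w = 0 :=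
  Finsupp.mapDomain_of_notMem_range _ _ fun ⟨v, hv⟩ => hw v hv.symm

theorem divisorExt_injective (h : IsConstantExtension K L i) :
    Function.Injective h.divisorExt := fun D D' hD => Finsupp.ext fun v => by
  rw [← h.divisorExt_apply_placeExt, hD, h.divisorExt_apply_placeExt]

theorem divisorExt_apply_eq_ord (h : IsConstantExtension K L i) {f : F} {D : Divisor K F}
    (hD : ∀ v, D v = v.ord f) (w : Place L E) : h.divisorExt D w = w.ord (i f) := by
  by_cases hw : ∃ v, w = h.placeExt v
  · obtain ⟨v, rfl⟩ := hw
    simp [hD]
  · rw [h.divisorExt_apply_eq_zero D (not_exists.mp hw)]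
    exact not_not.mp fun h0 => hw (h.exists_eq_placeExt_of_ord_ne_zero (Ne.symm h0))

theorem divisorExt_mem_principal (h : IsConstantExtension K L i) {D : Divisor K F}
    (hD : D ∈ Divisor.principal (K := K) (F := F)) :
    h.divisorExt D ∈ Divisor.principal (K := L) (F := E) := by
  obtain ⟨f, hf, hD⟩ := hD
  exact ⟨i f, fun h0 => hf (i.injective (by simpa using h0)), h.divisorExt_apply_eq_ord hD⟩

variable [IsAlgClosed L]

@[simp]
theorem degree_divisorExt (h : IsConstantExtension K L i) (D : Divisor K F) :
    Divisor.degree (h.divisorExt D) = Divisor.degree D := by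
  induction D using Finsupp.induction with
  | zero => simp
  | single_add v n D _ _ ih =>
    rw [map_add, map_add, map_add, ih, h.divisorExt_single, Divisor.degree_single,
      Divisor.degree_single, deg_eq_one, deg_eq_one]

theorem divisorExt_mem_degZero (h : IsConstantExtension K L i) {D : Divisor K F}
    (hD : D ∈ Divisor.degZero (K := K) (F := F)) :
    h.divisorExt D ∈ Divisor.degZero (K := L) (F := E) := by
  rw [Divisor.mem_degZero] at hD ⊢
  rwa [degree_divisorExt]

/-- The extension of divisors of degree zero. -/
def degZeroExt (h : IsConstantExtension K L i) :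
    Divisor.degZero (K := K) (F := F) →+ Divisor.degZero (K := L) (F := E) :=
  (h.divisorExt.domRestrict (Divisor.degZero (K := K) (F := F))).codRestrict _
    fun D => h.divisorExt_mem_degZero D.2

@[simp]
theorem coe_degZeroExt (h : IsConstantExtension K L i) (D : Divisor.degZero (K := K) (F := F)) :
    (h.degZeroExt D : Divisor L E) = h.divisorExt D := rfl

/-- The extension map on `Pic⁰`. -/
def pic0Map (h : IsConstantExtension K L i) : Pic0 K F →+ Pic0 L E :=
  QuotientAddGroup.map _ _ h.degZeroExt fun D hD => by
    simp only [AddSubgroup.mem_addSubgroupOf, AddSubgroup.mem_comap] at hD ⊢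
    exact h.divisorExt_mem_principal hD

@[simp]
theorem pic0Map_mk (h : IsConstantExtension K L i) (D : Divisor.degZero (K := K) (F := F)) :
    h.pic0Map (Pic0.mk D) = Pic0.mk (h.degZeroExt D) := rfl

omit [IsAlgClosed L] in
/-- Compatibility of the place extension with semilinear automorphisms. -/
theorem smul_placeExt (h : IsConstantExtension K L i) (g : SemilinearAut K F)
    (g' : SemilinearAut L E) (hg : ∀ f, g' • i f = i (g • f)) (v : Place K F) :
    g' • h.placeExt v = h.placeExt (g • v) := by
  refine h.eq_placeExt_of_forall_ord fun f => ?_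
  have h1 : g' • i (g⁻¹ • f) = i f := by rw [hg, smul_inv_smul]
  rw [← h1, SemilinearAut.ord_smul, ord_placeExt, ← SemilinearAut.ord_smul g, smul_inv_smul]

omit [IsAlgClosed L] in
theorem smul_divisorExt (h : IsConstantExtension K L i) (g : SemilinearAut K F)
    (g' : SemilinearAut L E) (hg : ∀ f, g' • i f = i (g • f)) (D : Divisor K F) :
    g' • h.divisorExt D = h.divisorExt (g • D) := by
  induction D using Finsupp.induction with
  | zero => simp
  | single_add v n D _ _ ih =>
    rw [map_add, smul_add, smul_add, map_add, ih, h.divisorExt_single, SemilinearAut.smul_single,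
      SemilinearAut.smul_single, h.divisorExt_single, h.smul_placeExt g g' hg]

/-- `pic0Map` is equivariant. -/
theorem smul_pic0Map (h : IsConstantExtension K L i) (g : SemilinearAut K F)
    (g' : SemilinearAut L E) (hg : ∀ f, g' • i f = i (g • f)) (c : Pic0 K F) :
    g' • h.pic0Map c = h.pic0Map (g • c) := by
  obtain ⟨D, rfl⟩ := Pic0.mk_surjective c
  rw [pic0Map_mk, SemilinearAut.pic0_smul_mk, SemilinearAut.pic0_smul_mk, pic0Map_mk]
  exact congrArg Pic0.mk (Subtype.ext (by simp [h.smul_divisorExt g g' hg]))

omit [IsAlgClosed L] in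
@[simp]
theorem extAut_smul_placeExt (h : IsConstantExtension K L i) (σ : L ≃ₐ[K] L) (v : Place K F) :
    h.extAut σ • h.placeExt v = h.placeExt v := by
  simpa using h.smul_placeExt 1 (h.extAut σ) (fun f => by rw [extAut_smul_map, one_smul]) v

omit [IsAlgClosed L] in
@[simp]
theorem extAut_smul_divisorExt (h : IsConstantExtension K L i) (σ : L ≃ₐ[K] L)
    (D : Divisor K F) : h.extAut σ • h.divisorExt D = h.divisorExt D := by
  simpa using h.smul_divisorExt 1 (h.extAut σ) (fun f => by rw [extAut_smul_map, one_smul]) D

/-- A place with finitely many conjugates comes from `F`. -/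
theorem exists_eq_placeExt_of_finite_orbit (h : IsConstantExtension K L i) {w : Place L E}
    (hw : (Set.range fun σ : L ≃ₐ[K] L => h.extAut σ • w).Finite) :
    ∃ v, w = h.placeExt v := by
  obtain ⟨x, hx, -⟩ := ‹IsFunctionField K F›.exists_transcendental
  by_cases h0 : w.ord (i x) = 0
  swap
  · exact h.exists_eq_placeExt_of_ord_ne_zero h0
  have htr : Transcendental L (i x) := h.transcendental_map hx
  have hne : ∀ c : L, i x - algebraMap L E c ≠ 0 := fun c h0 =>
    htr (by rw [sub_eq_zero.mp h0]; exact isAlgebraic_algebraMap c)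
  have hix : i x ≠ 0 := by simpa using hne 0
  have hmem : i x ∈ ordGE w 0 := mem_ordGE_of_le (v := w) h0.ge
  obtain ⟨a, ha⟩ := exists_sub_smul_mem_ordGE w (deg_eq_one w) one_ne_zero w.ord_one hmem
  rw [← Algebra.algebraMap_eq_smul_one, zero_add, mem_ordGE_of_ne_zero (hne a)] at ha
  -- the constant is determined by the place
  have huniq : ∀ (u : Place L E) (b c : L), 0 < u.ord (i x - algebraMap L E b) →
      0 < u.ord (i x - algebraMap L E c) → b = c := fun u b c hb hc => by
    by_contra hbc
    have h2 := sub_mem (mem_ordGE_of_le (v := u) (n := 1) hb) (mem_ordGE_of_le (v := u) (n := 1) hc)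
    rw [sub_sub_sub_cancel_left, ← map_sub,
      mem_ordGE_of_ne_zero ((map_ne_zero _).mpr (sub_ne_zero.mpr (Ne.symm hbc))),
      ord_algebraMap] at h2
    omega
  have hσ : ∀ σ : L ≃ₐ[K] L,
      0 < (h.extAut σ • w).ord (i x - algebraMap L E (σ a)) := fun σ => by
    have e : h.extAut σ • (i x - algebraMap L E a) = i x - algebraMap L E (σ a) := by
      rw [smul_sub, extAut_smul_map, SemilinearAut.smul_algebraMap, baseAut_extAut]
      rfl
    rw [← e, SemilinearAut.ord_smul]
    omega
  have hfin : (Set.range fun σ : L ≃ₐ[K] L => σ a).Finite := by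
    have hU : ∀ u ∈ Set.range (fun σ : L ≃ₐ[K] L => h.extAut σ • w),
        {c : L | 0 < u.ord (i x - algebraMap L E c)}.Finite := fun u _ =>
      Set.Subsingleton.finite fun b hb c hc => huniq u b c hb hc
    refine (hw.biUnion hU).subset ?_
    rintro _ ⟨σ, rfl⟩
    exact Set.mem_biUnion ⟨σ, rfl⟩ (hσ σ)
  obtain ⟨b, hb⟩ := mem_range_of_finite_orbit hfin
  refine h.exists_eq_placeExt_of_ord_ne_zero (f := x - algebraMap K F b) ?_
  rw [map_sub, h.commutes, hb]
  omega

end FermatLib.Curve.IsConstantExtension
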