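import Fermat.Agent.Curve.ConstExt.PicMap

/-!
Constant field extensions: Riemann–Roch spaces descend, so `l(D)` is preserved and the map on
`Pic⁰` is injective.
-/

set_option autoImplicit false

noncomputable section

namespace FermatLib.Curve.IsConstantExtension

open AlgebraicCurve

variable {K L F E : Type*} [Field K] [Field L] [Algebra K L] [Field F] [Algebra K F]
  [Field E] [Algebra L E] {i : F →+* E} [IsAlgClosed K] [IsFunctionField K F]
  [IsFunctionField L E]

theorem map_mem_riemannRochSpace_iff (h : IsConstantExtension K L i) (D : Divisor K F) (f : F) :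
    i f ∈ riemannRochSpace (h.divisorExt D) ↔ f ∈ riemannRochSpace D := by
  simp only [mem_riemannRochSpace_iff, map_eq_zero]
  constructor
  · intro hf v
    simpa using hf (h.placeExt v)
  · intro hf w
    rcases eq_or_ne f 0 with rfl | hf0
    · exact Or.inl rfl
    right
    by_cases hw : ∃ v, w = h.placeExt v
    · obtain ⟨v, rfl⟩ := hw
      simpa [hf0] using hf v
    · rw [h.divisorExt_apply_eq_zero D (not_exists.mp hw), neg_zero]
      exact (not_not.mp fun h0 => hw (h.exists_eq_placeExt_of_ord_ne_zero h0)).ge

theorem smul_mem_riemannRochSpace (g : SemilinearAut L E) {D : Divisor L E} {f : E}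
    (hf : f ∈ riemannRochSpace D) : g • f ∈ riemannRochSpace (g • D) := by
  rw [mem_riemannRochSpace_iff] at hf ⊢
  intro w
  rcases hf (g⁻¹ • w) with h0 | hle
  · exact Or.inl (by rw [h0, smul_zero])
  · right
    have h1 := SemilinearAut.ord_smul g (g⁻¹ • w) f
    rw [smul_inv_smul] at h1
    rwa [SemilinearAut.divisor_smul_apply, h1]

variable [IsAlgClosed L]

/-- `L(ιD)` is spanned by `L(D)`. -/
theorem riemannRochSpace_divisorExt_eq (h : IsConstantExtension K L i) (D : Divisor K F)
    [FiniteDimensional L (riemannRochSpace (h.divisorExt D))] :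
    riemannRochSpace (h.divisorExt D) =
      Submodule.span L (i '' (riemannRochSpace D : Set F)) := by
  rw [h.eq_span_of_stable (riemannRochSpace (h.divisorExt D)) fun σ f hf => by
    simpa using smul_mem_riemannRochSpace (h.extAut σ) hf]
  simp only [h.map_mem_riemannRochSpace_iff]
  rfl

/-- `l(ιD) = l(D)`. -/
theorem finrank_riemannRochSpace_divisorExt (h : IsConstantExtension K L i) (D : Divisor K F)
    [FiniteDimensional L (riemannRochSpace (h.divisorExt D))]
    [FiniteDimensional K (riemannRochSpace D)] :
    Module.finrank L (riemannRochSpace (h.divisorExt D)) =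
      Module.finrank K (riemannRochSpace D) := by
  let b := Module.finBasis K (riemannRochSpace D)
  have hb : LinearIndependent K fun j => (b j : F) :=
    b.linearIndependent.map' (riemannRochSpace D).subtype (Submodule.ker_subtype _)
  have hspan : Submodule.span K (Set.range fun j => (b j : F)) = riemannRochSpace D := by
    rw [show (fun j => (b j : F)) = (riemannRochSpace D).subtype ∘ b from rfl, Set.range_comp,
      ← Submodule.map_span, b.span_eq, Submodule.map_top, Submodule.range_subtype]
  have hle : Submodule.span L (i '' (riemannRochSpace D : Set F)) =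
      Submodule.span L (Set.range fun j => i (b j : F)) := by
    refine le_antisymm (Submodule.span_le.mpr ?_) (Submodule.span_mono ?_)
    · rintro _ ⟨f, hf, rfl⟩
      rw [SetLike.mem_coe, ← hspan] at hf
      induction hf using Submodule.span_induction with
      | mem z hz => obtain ⟨j, rfl⟩ := hz; exact Submodule.subset_span ⟨j, rfl⟩
      | zero => simp
      | add _ _ _ _ ha hb => rw [map_add]; exact add_mem ha hb
      | smul c z _ hz =>
        rw [Algebra.smul_def c z, map_mul, h.commutes, ← Algebra.smul_def]
        exact Submodule.smul_mem _ _ hz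
    · rintro _ ⟨j, rfl⟩
      exact ⟨_, (b j).2, rfl⟩
  rw [h.riemannRochSpace_divisorExt_eq D, hle, finrank_span_eq_card (h.linearIndependent_map hb),
    Fintype.card_fin]

theorem pic0Map_injective (h : IsConstantExtension K L i)
    [∀ D : Divisor L E, FiniteDimensional L (riemannRochSpace D)] :
    Function.Injective h.pic0Map := by
  refine (injective_iff_map_eq_zero _).mpr fun c hc => ?_
  obtain ⟨D, rfl⟩ := Pic0.mk_surjective c
  rw [pic0Map_mk] at hc
  obtain ⟨e, he, hD⟩ : Divisor.IsPrincipal (h.divisorExt (D : Divisor K F)) :=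
    AddSubgroup.mem_addSubgroupOf.mp ((QuotientAddGroup.eq_zero_iff _).mp hc)
  have hmem : e ∈ riemannRochSpace (h.divisorExt (-(D : Divisor K F))) :=
    mem_riemannRochSpace_iff.mpr fun w => Or.inr (by rw [map_neg, Finsupp.neg_apply, hD w, neg_neg])
  -- hence some nonzero function of `F` lies in `L(-D)`
  obtain ⟨f, hf, hf0⟩ : ∃ f ∈ riemannRochSpace (-(D : Divisor K F)), f ≠ 0 := by
    by_contra hall
    push Not at hall
    have hbot : riemannRochSpace (h.divisorExt (-(D : Divisor K F))) ≤ ⊥ := by
      rw [h.riemannRochSpace_divisorExt_eq]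
      refine Submodule.span_le.mpr ?_
      rintro _ ⟨f, hf, rfl⟩
      simp [hall f hf]
    exact he (by simpa using hbot hmem)
  rw [mem_riemannRochSpace_iff] at hf
  obtain ⟨G, hG, hGdeg⟩ := HasPrincipalDivisors.exists_divisor (K := K) f hf0
  have hle : ∀ v, (D : Divisor K F) v ≤ G v := fun v => by
    simpa [hG, hf0] using hf v
  have hdeg : Divisor.degree (G - (D : Divisor K F)) = 0 := by
    rw [map_sub, hGdeg, Divisor.mem_degZero.mp D.2, sub_zero]
  have hDG : (D : Divisor K F) = G := by
    by_contra hne
    obtain ⟨v, hv⟩ : ∃ v, (D : Divisor K F) v ≠ G v := by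
      by_contra hall
      exact hne (Finsupp.ext (by simpa using hall))
    have hpos : 0 < Divisor.degree (G - (D : Divisor K F)) := by
      rw [Divisor.degree, Finsupp.liftAddHom_apply]
      refine Finset.sum_pos' (fun u _ => ?_) ⟨v, ?_, ?_⟩
      · simp [deg_eq_one, hle u]
      · rw [Finsupp.mem_support_iff, Finsupp.sub_apply]
        exact fun h0 => hv (by linarith)
      · have := hle v
        simp [deg_eq_one]
        omega
    omega
  refine (QuotientAddGroup.eq_zero_iff _).mpr (AddSubgroup.mem_addSubgroupOf.mpr ?_)
  exact ⟨f, hf0, fun v => by rw [← hG, hDG]⟩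

end FermatLib.Curve.IsConstantExtension
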