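import Fermat.Agent.Curve.ConstExt.Genus
import Fermat.Agent.Curve.RiemannRoch
import Fermat.Agent.Curve.KaehlerBasic

/-!
Invariance of the genus and of the torsion of `Pic⁰` under constant field extensions in
characteristic zero.
-/

set_option autoImplicit false

noncomputable section

open AlgebraicCurve

namespace FermatLib.Curve

variable {K F : Type*} [Field K] [Field F] [Algebra K F] [IsAlgClosed K] [CharZero K]
  [IsFunctionField K F]

/-- A function field in characteristic zero over an algebraically closed field is a curve. -/
theorem isCurveOver_of_isFunctionField : IsCurveOver K F := by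
  obtain ⟨x, hx, hfin⟩ := ‹IsFunctionField K F›.exists_transcendental
  exact isCurveOver_of_separating hx finite_residueField_of_isFunctionField

namespace IsConstantExtension

variable {L E : Type*} [Field L] [Algebra K L] [IsAlgClosed L] [Field E] [Algebra L E]
  [IsFunctionField L E] {i : F →+* E}

omit [CharZero K] in
/-- Constant extensions preserve the genus. -/
theorem genusFF_eq (h : IsConstantExtension K L i) : genusFF L E = genusFF K F := by
  obtain ⟨N, hN⟩ := exists_finrank_riemannRochSpace_eq K F
  obtain ⟨N', hN'⟩ := exists_finrank_riemannRochSpace_eq L E
  exact_mod_cast (h.eq_of_finrank_riemannRochSpace hN hN').symm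

omit [CharZero K] in
/-- The map on `n`-torsion is bijective as soon as the torsion upstairs is finite. -/
theorem torsionMap_bijective_of_finite (h : IsConstantExtension K L i)
    {n : ℕ} (hfin : Finite (Pic0.torsion L E n)) : Function.Bijective (h.torsionMap n) := by
  obtain ⟨N', hN'⟩ := exists_finrank_riemannRochSpace_eq L E
  exact h.torsionMap_bijective (exists_riemannRochSpace_ne_bot hN') hfin

omit [CharZero K] in
/-- The number of `n`-torsion points is unchanged when it is finite and nonzero upstairs. -/
theorem natCard_torsion_eq (h : IsConstantExtension K L i)
    {n m : ℕ} (hm : m ≠ 0) (hcard : Nat.card (Pic0.torsion L E n) = m) :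
    Nat.card (Pic0.torsion K F n) = m := by
  have hfin : Finite (Pic0.torsion L E n) := Nat.finite_of_card_ne_zero (by omega)
  rw [Nat.card_eq_of_bijective _ (h.torsionMap_bijective_of_finite hfin), hcard]

end IsConstantExtension

end FermatLib.Curve
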