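import Fermat.Agent.Curve.Descent.ConstExt
import Fermat.Agent.Curve.PlaceExtras

/-!
Constant field extensions: every element of `L ⬝ F` has a leading term at a rational place of
`F`, and this computes the order at every place above it.
-/

set_option autoImplicit false

noncomputable section

namespace FermatLib.Curve

open AlgebraicCurve WithZero

variable {K L F E : Type*} [Field K] [Field L] [Algebra K L] [Field F] [Algebra K F]
  [Field E] [Algebra L E] {i : F →+* E}

/-- A function of order at least `n` at a rational place is a multiple of a fixed one of order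
exactly `n`, up to higher order. -/
theorem exists_sub_smul_mem_ordGE (v : Place K F) (hv : v.deg = 1) {n : ℤ} {t f : F}
    (ht0 : t ≠ 0) (ht : v.ord t = n) (hf : f ∈ ordGE v n) :
    ∃ c : K, f - c • t ∈ ordGE v (n + 1) := by
  have hu : f / t ∈ v.toValuationSubring := by
    rw [mem_valuationSubring_iff]
    have h1 : t⁻¹ ∈ ordGE v (-n) := mem_ordGE_of_le (v := v) (by rw [v.ord_inv, ht])
    simpa [div_eq_mul_inv] using mul_mem_ordGE hf h1
  obtain ⟨c, hc⟩ := (finrank_eq_one_iff_of_nonzero' (1 : v.ResidueField) one_ne_zero).mp hv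
    (IsLocalRing.residue v.toValuationSubring ⟨f / t, hu⟩)
  refine ⟨c, ?_⟩
  have h0 : IsLocalRing.residue v.toValuationSubring
      (⟨f / t, hu⟩ - algebraMap K v.toValuationSubring c) = 0 := by
    rw [map_sub, ← hc, Algebra.smul_def, mul_one]
    exact sub_self _
  have h1 : f / t - algebraMap K F c ∈ ordGE v 1 := (residue_eq_zero_iff_mem_ordGE v _).mp h0
  have h2 := mul_mem_ordGE (mem_ordGE_of_le (v := v) (le_of_eq ht.symm)) h1
  rwa [mul_sub, mul_div_cancel₀ f ht0, mul_comm t, ← Algebra.smul_def] at h2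

namespace IsConstantExtension

variable (L i) in
/-- The `L`-span of the functions of order at least `n` at `v`. -/
def spanGE (v : Place K F) (n : ℤ) : Submodule L E :=
  Submodule.span L (i '' (ordGE v n : Set F))

theorem map_mem_spanGE {v : Place K F} {n : ℤ} {f : F} (hf : f ∈ ordGE v n) :
    i f ∈ spanGE L i v n :=
  Submodule.subset_span ⟨f, hf, rfl⟩

theorem spanGE_anti {v : Place K F} {m n : ℤ} (h : m ≤ n) : spanGE L i v n ≤ spanGE L i v m :=
  Submodule.span_mono (Set.image_mono (ordGE_anti h))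

theorem mul_mem_spanGE {v : Place K F} {m n : ℤ} {x y : E} (hx : x ∈ spanGE L i v m)
    (hy : y ∈ spanGE L i v n) : x * y ∈ spanGE L i v (m + n) := by
  have hle : spanGE L i v m * spanGE L i v n ≤ spanGE L i v (m + n) := by
    rw [spanGE, spanGE, Submodule.span_mul_span]
    refine Submodule.span_mono ?_
    rintro _ ⟨_, ⟨f, hf, rfl⟩, _, ⟨g, hg, rfl⟩, rfl⟩
    exact ⟨f * g, mul_mem_ordGE hf hg, map_mul i f g⟩
  exact hle (Submodule.mul_mem_mul hx hy)

/-- `r` has order `n` at `v`, the leading term being a multiple of an element of `F`. -/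
def HasLeadingTerm (L : Type*) [Field L] [Algebra L E] (i : F →+* E) (v : Place K F) (r : E)
    (n : ℤ) : Prop :=
  ∃ (l : L) (f : F), l ≠ 0 ∧ f ≠ 0 ∧ v.ord f = n ∧ r - l • i f ∈ spanGE L i v (n + 1)

theorem hasLeadingTerm_map {v : Place K F} {f : F} (hf : f ≠ 0) :
    HasLeadingTerm L i v (i f) (v.ord f) :=
  ⟨1, f, one_ne_zero, hf, rfl, by simp⟩

theorem HasLeadingTerm.mem_spanGE {v : Place K F} {r : E} {n : ℤ}
    (hr : HasLeadingTerm L i v r n) : r ∈ spanGE L i v n := by
  obtain ⟨l, f, hl, hf, hfn, h⟩ := hr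
  have := add_mem (spanGE_anti (by omega) h)
    (Submodule.smul_mem _ l (map_mem_spanGE (i := i) (mem_ordGE_of_le (v := v) hfn.ge)))
  simpa using this

theorem map_notMem_spanGE (h : IsConstantExtension K L i) {v : Place K F} {f : F} (hf : f ≠ 0) :
    i f ∉ spanGE L i v (v.ord f + 1) := fun hm => by
  have h1 := h.mem_span_of_map_mem_span hm
  rw [Submodule.span_eq, mem_ordGE_of_ne_zero hf] at h1
  omega

theorem HasLeadingTerm.notMem_spanGE (h : IsConstantExtension K L i) {v : Place K F} {r : E}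
    {n : ℤ} (hr : HasLeadingTerm L i v r n) : r ∉ spanGE L i v (n + 1) := fun hm => by
  obtain ⟨l, f, hl, hf, hfn, hsub⟩ := hr
  subst hfn
  refine h.map_notMem_spanGE (v := v) hf ?_
  have h1 := sub_mem hm hsub
  rw [sub_sub_cancel] at h1
  simpa [smul_smul, hl] using Submodule.smul_mem _ l⁻¹ h1

theorem HasLeadingTerm.ne_zero (h : IsConstantExtension K L i) {v : Place K F} {r : E} {n : ℤ}
    (hr : HasLeadingTerm L i v r n) : r ≠ 0 := fun h0 =>
  hr.notMem_spanGE h (h0 ▸ zero_mem _)

theorem HasLeadingTerm.le_of_mem (h : IsConstantExtension K L i) {v : Place K F} {r : E}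
    {m n : ℤ} (hr : HasLeadingTerm L i v r n) (hm : r ∈ spanGE L i v m) : m ≤ n := by
  by_contra hlt
  exact hr.notMem_spanGE h (spanGE_anti (by omega) hm)

theorem HasLeadingTerm.eq (h : IsConstantExtension K L i) {v : Place K F} {r : E} {m n : ℤ}
    (hm : HasLeadingTerm L i v r m) (hn : HasLeadingTerm L i v r n) : m = n :=
  le_antisymm (hn.le_of_mem h hm.mem_spanGE) (hm.le_of_mem h hn.mem_spanGE)

theorem HasLeadingTerm.mul {v : Place K F} {r s : E} {m n : ℤ}
    (hr : HasLeadingTerm L i v r m) (hs : HasLeadingTerm L i v s n) :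
    HasLeadingTerm L i v (r * s) (m + n) := by
  obtain ⟨l, f, hl, hf, hfn, h1⟩ := hr
  have hsm := hs.mem_spanGE
  obtain ⟨k, g, hk, hg, hgn, h2⟩ := hs
  refine ⟨l * k, f * g, mul_ne_zero hl hk, mul_ne_zero hf hg,
    by rw [v.ord_mul hf hg, hfn, hgn], ?_⟩
  have e : r * s - (l * k) • i (f * g) =
      (r - l • i f) * s + (l • i f) * (s - k • i g) := by
    rw [map_mul]
    simp only [Algebra.smul_def, map_mul]
    ring
  rw [e]
  refine add_mem ?_ ?_
  · have := mul_mem_spanGE h1 hsm
    rwa [show m + 1 + n = m + n + 1 by ring] at this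
  · have := mul_mem_spanGE (Submodule.smul_mem _ l
      (map_mem_spanGE (i := i) (mem_ordGE_of_le (v := v) hfn.ge))) h2
    rwa [← add_assoc] at this

theorem eq_zero_or_exists_hasLeadingTerm_sum (h : IsConstantExtension K L i) (v : Place K F)
    (hv : v.deg = 1) {ι : Type*} (s : Finset ι) (f : ι → F) (c : ι → L) :
    ∑ j ∈ s, c j • i (f j) = 0 ∨
      ∃ n, HasLeadingTerm L i v (∑ j ∈ s, c j • i (f j)) n := by
  classical
  induction s using Finset.strongInduction generalizing f c with
  | H s ih =>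
  by_cases hall : ∀ j ∈ s, f j = 0
  · left
    exact Finset.sum_eq_zero fun j hj => by rw [hall j hj, map_zero, smul_zero]
  push Not at hall
  obtain ⟨j₀, hj₀, hmin⟩ := Finset.exists_min_image (s.filter fun j => f j ≠ 0)
    (fun j => v.ord (f j)) (by
      obtain ⟨j, hj, hj0⟩ := hall
      exact ⟨j, Finset.mem_filter.mpr ⟨hj, hj0⟩⟩)
  rw [Finset.mem_filter] at hj₀
  have hmem : ∀ j ∈ s, f j ∈ ordGE v (v.ord (f j₀)) := fun j hj => by
    rcases eq_or_ne (f j) 0 with h0 | h0
    · rw [h0]; exact zero_mem _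
    · exact mem_ordGE_of_le (v := v) (hmin j (Finset.mem_filter.mpr ⟨hj, h0⟩))
  have hd : ∀ j, ∃ d : K, j ∈ s → f j - d • f j₀ ∈ ordGE v (v.ord (f j₀) + 1) := fun j => by
    by_cases hj : j ∈ s
    · obtain ⟨d, hd⟩ := exists_sub_smul_mem_ordGE v hv hj₀.2 rfl (hmem j hj)
      exact ⟨d, fun _ => hd⟩
    · exact ⟨0, fun hj' => absurd hj' hj⟩
  choose d hd using hd
  let c' := c j₀ + ∑ j ∈ s.erase j₀, c j * algebraMap K L (d j)
  have hsum : ∑ j ∈ s, c j • i (f j) =
      c' • i (f j₀) + ∑ j ∈ s.erase j₀, c j • i (f j - d j • f j₀) := by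
    rw [← Finset.add_sum_erase s _ hj₀.1, add_smul, Finset.sum_smul, add_assoc,
      ← Finset.sum_add_distrib]
    refine congrArg _ (Finset.sum_congr rfl fun j _ => ?_)
    rw [map_sub, Algebra.smul_def (d j) (f j₀), map_mul, h.commutes]
    simp only [Algebra.smul_def, map_mul]
    ring
  by_cases hc : c' = 0
  · rw [hsum, hc, zero_smul, zero_add]
    exact ih _ (Finset.erase_ssubset hj₀.1) _ _
  · right
    refine ⟨v.ord (f j₀), c', f j₀, hc, hj₀.2, rfl, ?_⟩
    rw [hsum, add_sub_cancel_left]
    exact sum_mem fun j hj => Submodule.smul_mem _ _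
      (map_mem_spanGE (hd j (Finset.mem_of_mem_erase hj)))

theorem exists_hasLeadingTerm (h : IsConstantExtension K L i) (v : Place K F) (hv : v.deg = 1)
    {r : E} (hr : r ∈ Submodule.span L (Set.range i)) (hr0 : r ≠ 0) :
    ∃ n, HasLeadingTerm L i v r n := by
  obtain ⟨c, hc⟩ := Finsupp.mem_span_range_iff_exists_finsupp.mp hr
  have := h.eq_zero_or_exists_hasLeadingTerm_sum v hv c.support id c
  rw [show (∑ j ∈ c.support, c j • i (id j)) = r from hc] at this
  exact this.resolve_left hr0

theorem adjoin_range_eq_span :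
    (Algebra.adjoin L (Set.range i)).toSubmodule = Submodule.span L (Set.range i) := by
  rw [Algebra.adjoin_eq_span, show Set.range i = (MonoidHom.mrange (i : F →* E) : Set E) from rfl,
    Submonoid.closure_eq]

theorem mem_span_of_mem_adjoin {r : E} (hr : r ∈ Algebra.adjoin L (Set.range i)) :
    r ∈ Submodule.span L (Set.range i) := by
  rw [← adjoin_range_eq_span]
  exact hr

/-- Every element is a ratio of elements with leading terms. -/
theorem exists_div_hasLeadingTerm (h : IsConstantExtension K L i) (v : Place K F)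
    (hv : v.deg = 1) {x : E} (hx : x ≠ 0) :
    ∃ (a b : E) (m n : ℤ), x = a / b ∧ HasLeadingTerm L i v a m ∧ HasLeadingTerm L i v b n := by
  have hmem : x ∈ IntermediateField.adjoin L (Set.range i) := by
    rw [h.adjoin_eq_top]
    exact IntermediateField.mem_top
  obtain ⟨a, ha, b, hb, rfl⟩ := IntermediateField.mem_adjoin_iff_div.mp hmem
  obtain ⟨m, hm⟩ := h.exists_hasLeadingTerm v hv (mem_span_of_mem_adjoin ha)
    (fun h0 => hx (by rw [h0, zero_div]))
  obtain ⟨n, hn⟩ := h.exists_hasLeadingTerm v hv (mem_span_of_mem_adjoin hb)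
    (fun h0 => hx (by rw [h0, div_zero]))
  exact ⟨a, b, m, n, rfl, hm, hn⟩

/-- At a place multiplying orders by `e > 0`, the order is `e` times that of the leading term. -/
theorem HasLeadingTerm.ord_eq {v : Place K F} {w : Place L E} {e : ℤ} (he : 0 < e)
    (hw : ∀ f, w.ord (i f) = e * v.ord f) {r : E} {n : ℤ} (hr : HasLeadingTerm L i v r n) :
    r ≠ 0 ∧ w.ord r = e * n := by
  obtain ⟨l, f, hl, hf, hfn, hsub⟩ := hr
  have hle : spanGE L i v (n + 1) ≤ ordGE w (e * n + 1) := by
    refine Submodule.span_le.mpr ?_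
    rintro _ ⟨g, hg, rfl⟩
    rcases eq_or_ne g 0 with rfl | hg0
    · simp
    rw [SetLike.mem_coe, mem_ordGE_of_ne_zero hg0] at hg
    refine mem_ordGE_of_le (v := w) ?_
    rw [hw]
    nlinarith
  have h0 : l • i f ≠ 0 := smul_ne_zero hl (fun h' => hf (i.injective (by simpa using h')))
  have hord : w.ord (l • i f) = e * n := by
    rw [Algebra.smul_def, w.ord_mul (by simpa using hl)
      (fun h' => hf (i.injective (by simpa using h'))), ord_algebraMap, zero_add, hw, hfn]
  have := ord_add_eq_left_of_mem w (f := l • i f) (g := r - l • i f) h0 (by rw [hord]; exact hle hsub)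
  rw [add_sub_cancel, hord] at this
  exact this

end IsConstantExtension

end FermatLib.Curve
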