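import Fermat.Agent.Curve.ConstExt.RRDescent

/-!
Constant field extensions: classes of degree zero with finitely many conjugates descend, in
particular the torsion of `Pic⁰` does, as soon as it is finite.
-/

set_option autoImplicit false

noncomputable section

namespace FermatLib.Curve.IsConstantExtension

open AlgebraicCurve

variable {K L F E : Type*} [Field K] [Field L] [Algebra K L] [Field F] [Algebra K F]
  [Field E] [Algebra L E] {i : F →+* E} [IsAlgClosed K] [IsAlgClosed L] [IsFunctionField K F]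
  [IsFunctionField L E]

/-- If `L(G) ≠ 0` and `L(G - R) = 0`, then `L(G)` is a line. -/
theorem exists_eq_smul_of_riemannRochSpace_eq_bot {R : Place L E} {G : Divisor L E}
    (hbot : riemannRochSpace (G - Finsupp.single R 1) = ⊥) {f f' : E}
    (hf : f ∈ riemannRochSpace G) (hf' : f' ∈ riemannRochSpace G) (hf0 : f ≠ 0) :
    ∃ c : L, f' = c • f := by
  classical
  have hout : ∀ x ∈ riemannRochSpace G, x ∈ ordGE R (-G R + 1) → x = 0 := fun x hx hxR => by
    have hx' : x ∈ riemannRochSpace (G - Finsupp.single R 1) := by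
      rw [mem_riemannRochSpace] at hx ⊢
      intro v
      rw [Finsupp.sub_apply]
      rcases eq_or_ne R v with rfl | hne
      · rw [Finsupp.single_eq_same, neg_sub, sub_eq_neg_add, add_comm]
        simpa [add_comm] using hxR
      · rw [Finsupp.single_eq_of_ne hne.symm, sub_zero]
        exact hx v
    simpa [hbot] using hx'
  have hfR : f ∈ ordGE R (-G R) := (mem_riemannRochSpace.mp hf) R
  have hord : R.ord f = -G R := by
    refine le_antisymm ?_ (le_ord_of_mem hfR hf0)
    by_contra hlt
    exact hf0 (hout f hf (mem_ordGE_of_le (v := R) (by omega)))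
  obtain ⟨c, hc⟩ := exists_sub_smul_mem_ordGE R (deg_eq_one R) hf0 hord
    (mem_riemannRochSpace.mp hf' R)
  exact ⟨c, sub_eq_zero.mp (hout _ (sub_mem hf' (Submodule.smul_mem _ c hf)) hc)⟩

theorem riemannRochSpace_eq_bot_of_degree_neg {G : Divisor L E} (hG : Divisor.degree G < 0) :
    riemannRochSpace G = ⊥ := by
  refine (Submodule.eq_bot_iff _).mpr fun f hf => ?_
  by_contra hf0
  obtain ⟨P, hP, hPdeg⟩ := HasPrincipalDivisors.exists_divisor (K := L) f hf0
  rw [mem_riemannRochSpace_iff] at hf
  have hnonneg : 0 ≤ Divisor.degree (P + G) := by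
    rw [Divisor.degree, Finsupp.liftAddHom_apply]
    refine Finset.sum_nonneg fun u _ => ?_
    have := (hf u).resolve_left hf0
    simp [deg_eq_one, hP]
    omega
  rw [map_add, hPdeg] at hnonneg
  omega

theorem exists_divisorExt_eq (h : IsConstantExtension K L i) {G : Divisor L E}
    (hG : ∀ w ∈ G.support, ∃ v, w = h.placeExt v) : ∃ D, h.divisorExt D = G :=
  ⟨G.comapDomain h.placeExt h.placeExt_injective.injOn,
    Finsupp.mapDomain_comapDomain _ h.placeExt_injective _ fun w hw => by
      obtain ⟨v, rfl⟩ := hG w hw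
      exact ⟨v, rfl⟩⟩

/-- A class of degree zero with finitely many conjugates comes from `F`. -/
theorem mem_range_pic0Map_of_finite_orbit (h : IsConstantExtension K L i)
    (hbig : ∀ (G : Divisor L E) (R : Place L E), ∃ m : ℕ,
      riemannRochSpace (G + Finsupp.single R (m : ℤ)) ≠ ⊥)
    {c : Pic0 L E} (hc : (Set.range fun σ : L ≃ₐ[K] L => h.extAut σ • c).Finite) :
    c ∈ h.pic0Map.range := by
  classical
  obtain ⟨x, hx, -⟩ := ‹IsFunctionField K F›.exists_transcendental
  obtain ⟨P, -⟩ := exists_place_ord_pos (K := K) hx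
  set R := h.placeExt P with hR
  obtain ⟨D, rfl⟩ := Pic0.mk_surjective c
  have hex := hbig (D : Divisor L E) R
  set m := Nat.find hex with hm
  set G : Divisor L E := (D : Divisor L E) + Finsupp.single R (m : ℤ) with hGdef
  have hne : riemannRochSpace G ≠ ⊥ := Nat.find_spec hex
  have hprev : riemannRochSpace (G - Finsupp.single R 1) = ⊥ := by
    rcases Nat.eq_zero_or_pos m with h0 | h0
    · refine riemannRochSpace_eq_bot_of_degree_neg ?_
      simp [hGdef, h0, Divisor.mem_degZero.mp D.2, deg_eq_one]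
    · have := Nat.find_min hex (Nat.sub_lt h0 one_pos)
      rw [not_not] at this
      rwa [hGdef, add_sub_assoc, ← Finsupp.single_sub,
        show (m : ℤ) - 1 = ((m - 1 : ℕ) : ℤ) by omega]
  obtain ⟨f, hf, hf0⟩ := (Submodule.ne_bot_iff _).mp hne
  obtain ⟨Pf, hPf, hPfdeg⟩ := HasPrincipalDivisors.exists_divisor (K := L) f hf0
  set T : Divisor L E := G + Pf with hT
  have hfix : ∀ σ : L ≃ₐ[K] L, h.extAut σ • R = R := fun σ => h.extAut_smul_placeExt σ P
  have key : ∀ σ τ : L ≃ₐ[K] L, h.extAut σ • Pic0.mk D = h.extAut τ • Pic0.mk D →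
      h.extAut σ • T = h.extAut τ • T := by
    intro σ τ hστ
    rw [SemilinearAut.pic0_smul_mk, SemilinearAut.pic0_smul_mk] at hστ
    obtain ⟨e, he0, he⟩ : Divisor.IsPrincipal
        (h.extAut σ • (D : Divisor L E) - h.extAut τ • (D : Divisor L E)) := by
      have h2 := AddSubgroup.mem_addSubgroupOf.mp (QuotientAddGroup.eq_iff_sub_mem.mp hστ)
      exact Divisor.mem_principal.mp (by simpa using h2)
    have hGG : ∀ w, (h.extAut σ • G) w = (h.extAut τ • G) w + w.ord e := fun w => by
      simp only [hGdef, smul_add, SemilinearAut.smul_single, hfix, Finsupp.add_apply]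
      have := he w
      rw [Finsupp.sub_apply] at this
      omega
    have hbotτ : riemannRochSpace (h.extAut τ • G - Finsupp.single R 1) = ⊥ := by
      refine (Submodule.eq_bot_iff _).mpr fun y hy => ?_
      have h1 := smul_mem_riemannRochSpace (h.extAut τ)⁻¹ hy
      rw [smul_sub, inv_smul_smul, SemilinearAut.smul_single, ← map_inv, hfix, hprev,
        Submodule.mem_bot, smul_eq_zero_iff_eq] at h1
      exact h1
    have hσf : h.extAut σ • f ≠ 0 := by simpa using hf0
    have hτf : h.extAut τ • f ≠ 0 := by simpa using hf0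
    have hmem : h.extAut σ • f * e ∈ riemannRochSpace (h.extAut τ • G) := by
      rw [mem_riemannRochSpace_iff]
      intro w
      right
      rw [w.ord_mul hσf he0]
      have := ((mem_riemannRochSpace_iff.mp (smul_mem_riemannRochSpace (h.extAut σ) hf)) w
        ).resolve_left hσf
      have := hGG w
      omega
    obtain ⟨a, ha⟩ := exists_eq_smul_of_riemannRochSpace_eq_bot hbotτ
      (smul_mem_riemannRochSpace (h.extAut τ) hf) hmem hτf
    have ha0 : a ≠ 0 := by
      rintro rfl
      rw [zero_smul] at ha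
      exact mul_ne_zero hσf he0 ha
    have hsP : ∀ (g : SemilinearAut L E) (w : Place L E), (g • Pf) w = w.ord (g • f) := fun g w => by
      rw [SemilinearAut.divisor_smul_apply, hPf]
      have h1 := SemilinearAut.ord_smul g (g⁻¹ • w) f
      rwa [smul_inv_smul, eq_comm] at h1
    refine Finsupp.ext fun w => ?_
    have h3 := congrArg w.ord ha
    rw [w.ord_mul hσf he0, Algebra.smul_def, w.ord_mul (by simpa using ha0) hτf, ord_algebraMap,
      zero_add] at h3
    rw [hT, smul_add (h.extAut σ) G Pf, smul_add (h.extAut τ) G Pf, Finsupp.add_apply, Finsupp.add_apply, hsP, hsP]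
    have := hGG w
    omega
  have hTfin : (Set.range fun σ : L ≃ₐ[K] L => h.extAut σ • T).Finite := by
    refine (hc.image fun d => h.extAut
      (Function.invFun (fun σ : L ≃ₐ[K] L => h.extAut σ • Pic0.mk D) d) • T).subset ?_
    rintro _ ⟨σ, rfl⟩
    exact ⟨_, ⟨σ, rfl⟩, key _ σ (Function.invFun_eq (f := fun σ : L ≃ₐ[K] L =>
      h.extAut σ • Pic0.mk D) ⟨σ, rfl⟩)⟩
  have hsupp : ∀ w ∈ T.support, ∃ v, w = h.placeExt v := fun w hw => by
    refine h.exists_eq_placeExt_of_finite_orbit ?_
    refine (hTfin.biUnion fun U _ => U.support.finite_toSet).subset ?_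
    rintro _ ⟨σ, rfl⟩
    refine Set.mem_biUnion ⟨σ, rfl⟩ ?_
    rw [Finset.mem_coe, Finsupp.mem_support_iff, SemilinearAut.divisor_smul_apply_smul]
    exact Finsupp.mem_support_iff.mp hw
  obtain ⟨T₀, hT₀⟩ := h.exists_divisorExt_eq hsupp
  have hdeg : T₀ - Finsupp.single P (m : ℤ) ∈ Divisor.degZero (K := K) (F := F) := by
    rw [Divisor.mem_degZero, ← h.degree_divisorExt, map_sub, hT₀, h.divisorExt_single, ← hR]
    simp [hT, hGdef, hPfdeg, Divisor.mem_degZero.mp D.2, deg_eq_one]
  refine ⟨Pic0.mk ⟨_, hdeg⟩, ?_⟩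
  rw [pic0Map_mk]
  refine QuotientAddGroup.eq_iff_sub_mem.mpr (AddSubgroup.mem_addSubgroupOf.mpr ⟨f, hf0, fun w => ?_⟩)
  simp [hT₀, h.divisorExt_single, ← hR, hT, hGdef, hPf]; ring

/-- If the `n`-torsion upstairs is finite, all of it comes from `F`. -/
theorem torsion_le_range_pic0Map (h : IsConstantExtension K L i)
    (hbig : ∀ (G : Divisor L E) (R : Place L E), ∃ m : ℕ,
      riemannRochSpace (G + Finsupp.single R (m : ℤ)) ≠ ⊥)
    {n : ℕ} (hfin : Finite (Pic0.torsion L E n)) :
    Pic0.torsion L E n ≤ h.pic0Map.range := fun c hc => by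
  refine h.mem_range_pic0Map_of_finite_orbit hbig ?_
  refine (Set.toFinite (Pic0.torsion L E n : Set (Pic0 L E))).subset ?_
  rintro _ ⟨σ, rfl⟩
  exact SemilinearAut.smul_mem_torsion (h.extAut σ) hc

/-- The extension map on `n`-torsion. -/
def torsionMap (h : IsConstantExtension K L i) (n : ℕ) :
    Pic0.torsion K F n →+ Pic0.torsion L E n :=
  (h.pic0Map.domRestrict (Pic0.torsion K F n)).codRestrict _ fun c => by
    show h.pic0Map (c : Pic0 K F) ∈ _
    rw [Pic0.mem_torsion, ← map_zsmul, Pic0.mem_torsion.mp c.2, map_zero]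

@[simp]
theorem coe_torsionMap (h : IsConstantExtension K L i) (n : ℕ) (c : Pic0.torsion K F n) :
    (h.torsionMap n c : Pic0 L E) = h.pic0Map (c : Pic0 K F) := rfl

theorem torsionMap_bijective (h : IsConstantExtension K L i)
    [∀ D : Divisor L E, FiniteDimensional L (riemannRochSpace D)]
    (hbig : ∀ (G : Divisor L E) (R : Place L E), ∃ m : ℕ,
      riemannRochSpace (G + Finsupp.single R (m : ℤ)) ≠ ⊥)
    {n : ℕ} (hfin : Finite (Pic0.torsion L E n)) : Function.Bijective (h.torsionMap n) := by
  refine ⟨fun a b hab => Subtype.ext (h.pic0Map_injective (congrArg Subtype.val hab)), fun c => ?_⟩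
  obtain ⟨d, hd⟩ := h.torsion_le_range_pic0Map hbig hfin c.2
  refine ⟨⟨d, Pic0.mem_torsion.mpr (h.pic0Map_injective ?_)⟩, Subtype.ext hd⟩
  rw [map_zsmul, hd, map_zero, Pic0.mem_torsion.mp c.2]

end FermatLib.Curve.IsConstantExtension
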